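import Fermat.Agent.Lib.Kummer.Defs

set_option autoImplicit false

namespace Fermat.Agent.Lib.Kummer

open NumberField Polynomial Finset

variable {p : ℕ} [hp : Fact p.Prime] {K : Type} [Field K] [NumberField K]
  [hK : IsCyclotomicExtension {p} ℚ K] {ζ : K} (hζ : IsPrimitiveRoot ζ p)

include hK in
/-- Induction principle on `𝓞 K = ℤ[ζ]`. -/
theorem ringOfIntegers_induction {P : 𝓞 K → Prop} (hgen : P hζ.toInteger)
    (hint : ∀ n : ℤ, P (n : 𝓞 K)) (hadd : ∀ x y, P x → P y → P (x + y))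
    (hmul : ∀ x y, P x → P y → P (x * y)) (x : 𝓞 K) : P x := by
  have hx : x ∈ Algebra.adjoin ℤ {hζ.toInteger} := by
    rw [IsCyclotomicExtension.Rat.adjoin_singleton_eq_top hζ]; trivial
  induction hx using Algebra.adjoin_induction with
  | mem y hy => rw [Set.mem_singleton_iff.mp hy]; exact hgen
  | algebraMap r => simpa using hint r
  | add x y _ _ hx hy => exact hadd x y hx hy
  | mul x y _ _ hx hy => exact hmul x y hx hy

include hK in
/-- Every element of `𝓞 K` is congruent to an integer modulo `ζ - 1`. -/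
theorem exists_int_sub_dvd (x : 𝓞 K) : ∃ n : ℤ, (hζ.toInteger - 1) ∣ x - n := by
  induction x using ringOfIntegers_induction hζ with
  | hgen => exact ⟨1, by simp⟩
  | hint n => exact ⟨n, by simp⟩
  | hadd x y hx hy =>
    obtain ⟨n, hn⟩ := hx
    obtain ⟨m, hm⟩ := hy
    refine ⟨n + m, ?_⟩
    have := dvd_add hn hm
    convert this using 1
    push_cast; ring
  | hmul x y hx hy =>
    obtain ⟨n, hn⟩ := hx
    obtain ⟨m, hm⟩ := hy
    refine ⟨n * m, ?_⟩
    have := dvd_add (hn.mul_right y) (hm.mul_left (n : 𝓞 K))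
    convert this using 1
    push_cast; ring

include hK hζ in
/-- `x ^ p` is congruent to an integer modulo `p`. -/
theorem exists_int_pow_sub_dvd (x : 𝓞 K) : ∃ n : ℤ, (p : 𝓞 K) ∣ x ^ p - n := by
  induction x using ringOfIntegers_induction hζ with
  | hgen => exact ⟨1, by simp [hζ.toInteger_isPrimitiveRoot.pow_eq_one]⟩
  | hint n => exact ⟨n ^ p, by simp⟩
  | hadd x y hx hy =>
    obtain ⟨n, hn⟩ := hx
    obtain ⟨m, hm⟩ := hy
    obtain ⟨r, hr⟩ := exists_add_pow_prime_eq hp.out x y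
    refine ⟨n + m, ?_⟩
    have := dvd_add (dvd_add hn hm) (Dvd.intro (x * y * r) rfl : (p : 𝓞 K) ∣ p * (x * y * r))
    convert this using 1
    rw [hr]; push_cast; ring
  | hmul x y hx hy =>
    obtain ⟨n, hn⟩ := hx
    obtain ⟨m, hm⟩ := hy
    refine ⟨n * m, ?_⟩
    have := dvd_add (hn.mul_right (y ^ p)) (hm.mul_left (n : 𝓞 K))
    convert this using 1
    push_cast; ring


include hK in
/-- If `p ∣ ∑_{i<p-1} c i ζ^i` then `p` divides all `c i`. -/
theorem dvd_coeff_of_dvd_sum (c : ℕ → ℤ)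
    (h : (p : 𝓞 K) ∣ ∑ i ∈ range (p - 1), (c i : 𝓞 K) * hζ.toInteger ^ i) :
    ∀ i < p - 1, (p : ℤ) ∣ c i := by
  intro i hi
  obtain ⟨w, hw⟩ := h
  let B := hζ.integralPowerBasis
  have hdim : B.dim = p - 1 := by
    rw [hζ.integralPowerBasis_dim, Nat.totient_prime hp.out]
  have hsum : ∑ i ∈ range (p - 1), (c i : 𝓞 K) * hζ.toInteger ^ i
      = ∑ j : Fin B.dim, (c j) • B.basis j := by
    rw [← hdim, Finset.sum_range]
    refine Finset.sum_congr rfl fun j _ => ?_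
    rw [B.basis_eq_pow, hζ.integralPowerBasis_gen, zsmul_eq_mul]
  have h1 : B.basis.repr (∑ j : Fin B.dim, (c j) • B.basis j) ⟨i, hdim ▸ hi⟩ = c i := by
    rw [B.basis.repr_sum_self]
  have h2 : B.basis.repr ((p : 𝓞 K) * w) ⟨i, hdim ▸ hi⟩
      = (p : ℤ) * B.basis.repr w ⟨i, hdim ▸ hi⟩ := by
    have : (p : 𝓞 K) * w = (p : ℤ) • w := by simp
    rw [this, map_smul]; simp
  rw [← h1, ← hsum, hw, h2]
  exact Dvd.intro _ rfl

include hK in
/-- If `p ∣ ∑_{i<p} f i ζ^i` then all the `f i` are congruent modulo `p`. -/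
theorem dvd_sub_of_dvd_sum (f : ℕ → ℤ)
    (h : (p : 𝓞 K) ∣ ∑ i ∈ range p, (f i : 𝓞 K) * hζ.toInteger ^ i) :
    ∀ i < p, ∀ j < p, (p : ℤ) ∣ f i - f j := by
  have hp1 : p - 1 + 1 = p := Nat.sub_add_cancel hp.out.one_le
  have hgeom : ∑ i ∈ range p, hζ.toInteger ^ i = 0 :=
    hζ.toInteger_isPrimitiveRoot.geom_sum_eq_zero hp.out.one_lt
  have key : ∑ i ∈ range p, (f i : 𝓞 K) * hζ.toInteger ^ i
      = ∑ i ∈ range (p - 1), ((f i - f (p - 1) : ℤ) : 𝓞 K) * hζ.toInteger ^ i := by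
    have h1 : ∑ i ∈ range p, (f i : 𝓞 K) * hζ.toInteger ^ i
        = ∑ i ∈ range p, ((f i - f (p - 1) : ℤ) : 𝓞 K) * hζ.toInteger ^ i := by
      have : ∑ i ∈ range p, ((f i - f (p - 1) : ℤ) : 𝓞 K) * hζ.toInteger ^ i
          = ∑ i ∈ range p, (f i : 𝓞 K) * hζ.toInteger ^ i
            - (f (p - 1) : 𝓞 K) * ∑ i ∈ range p, hζ.toInteger ^ i := by
        rw [Finset.mul_sum, ← Finset.sum_sub_distrib]
        refine Finset.sum_congr rfl fun i _ => ?_
        push_cast; ring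
      rw [this, hgeom, mul_zero, sub_zero]
    rw [h1]
    have h2 := Finset.sum_range_succ
      (fun i => ((f i - f (p - 1) : ℤ) : 𝓞 K) * hζ.toInteger ^ i) (p - 1)
    rw [hp1] at h2
    rw [h2]
    simp
  rw [key] at h
  have h0 := dvd_coeff_of_dvd_sum hζ (fun i => f i - f (p - 1)) h
  have h1 : ∀ i < p, (p : ℤ) ∣ f i - f (p - 1) := by
    intro i hi
    rcases Nat.lt_or_ge i (p - 1) with h' | h'
    · exact h0 i h'
    · have : i = p - 1 := by omega
      simp [this]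
  intro i hi j hj
  have := dvd_sub (h1 i hi) (h1 j hj)
  simpa using this


include hK in
/-- Complex conjugation on `𝓞 K` and Kummer's lemma on `u / ū`. -/
theorem exists_conj (hp2 : 2 < p) : ∃ τ : 𝓞 K →+* 𝓞 K, τ hζ.toInteger * hζ.toInteger = 1 ∧
    ∀ u : (𝓞 K)ˣ, ∃ k < p, (u : 𝓞 K) = hζ.toInteger ^ k * τ u ∨
      (u : 𝓞 K) = - hζ.toInteger ^ k * τ u := by
  have : IsCMField K := IsCyclotomicExtension.Rat.isCMField K (S := {p}) ⟨p, rfl, hp2⟩
  have hodd : Odd p := hp.out.odd_of_ne_two hp2.ne'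
  have hz := hζ.toInteger_isPrimitiveRoot
  refine ⟨(RingOfIntegers.mapRingEquiv (IsCMField.complexConj K).toRingEquiv : 𝓞 K ≃+* 𝓞 K), ?_, ?_⟩
  · -- conj ζ * ζ = 1
    let zu : (𝓞 K)ˣ := (hz.isUnit hp.out.ne_zero).unit
    have hzu : zu ∈ Units.torsion K := by
      rw [Units.torsion, CommGroup.mem_torsion]
      refine isOfFinOrder_iff_pow_eq_one.mpr ⟨p, hp.out.pos, ?_⟩
      ext
      simp [zu, hz.pow_eq_one]
    have := IsCMField.unitsComplexConj_torsion K ⟨zu, hzu⟩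
    have h2 : (IsCMField.unitsComplexConj K zu : (𝓞 K)ˣ) * zu = 1 := by
      simp only at this
      rw [this]; simp
    have h3 := congrArg (fun x : (𝓞 K)ˣ => (x : 𝓞 K)) h2
    simpa [zu] using h3
  · intro u
    let t := IsCMField.unitsMulComplexConjInv K u
    have ht : (t : (𝓞 K)ˣ) = u * (IsCMField.unitsComplexConj K u)⁻¹ :=
      IsCMField.unitsMulComplexConjInv_apply K u
    have hu : (u : 𝓞 K) = ((t : (𝓞 K)ˣ) : 𝓞 K) * (IsCMField.unitsComplexConj K u : (𝓞 K)ˣ) := by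
      rw [ht, Units.val_mul, mul_assoc, Units.inv_mul, mul_one]
    have hord : (t : (𝓞 K)ˣ) ^ (2 * p) = 1 := by
      have h1 : t ^ (Units.torsionOrder K) = 1 := by
        rw [Units.torsionOrder]; exact pow_card_eq_one'
      rw [IsCyclotomicExtension.Rat.torsionOrder_eq (n := p),
        if_neg (Nat.not_even_iff_odd.mpr hodd)] at h1
      exact_mod_cast congrArg Subtype.val h1
    set s : 𝓞 K := ((t : (𝓞 K)ˣ) : 𝓞 K) with hs
    have hs2 : (s ^ p) * (s ^ p) = 1 := by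
      have := congrArg (fun x : (𝓞 K)ˣ => (x : 𝓞 K)) hord
      simp only [Units.val_pow_eq_pow_val, Units.val_one] at this
      rw [← this, ← pow_add, two_mul]
    rcases mul_self_eq_one_iff.mp hs2 with h | h
    · obtain ⟨i, hi, hi'⟩ := hz.eq_pow_of_pow_eq_one h
      exact ⟨i, hi, Or.inl (by rw [hi']; exact hu)⟩
    · have h' : (-s) ^ p = 1 := by rw [hodd.neg_pow, h, neg_neg]
      obtain ⟨i, hi, hi'⟩ := hz.eq_pow_of_pow_eq_one h'
      exact ⟨i, hi, Or.inr (by rw [hi', neg_neg]; exact hu)⟩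

end Fermat.Agent.Lib.Kummer
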