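import Fermat.Agent.Lib.Kummer.Basic

set_option autoImplicit false

namespace Fermat.Agent.Lib.Kummer

open NumberField Polynomial Finset

variable {p : ℕ} [hp : Fact p.Prime] {K : Type} [Field K] [NumberField K]
  [hK : IsCyclotomicExtension {p} ℚ K] {ζ : K} (hζ : IsPrimitiveRoot ζ p)

include hK hζ in
/-- The factors `a + η b` are pairwise coprime in case I. -/
theorem caseI_isCoprime [IsPrincipalIdealRing (𝓞 K)] (hp2 : p ≠ 2) {a b c : ℤ}
    (hab : IsCoprime a b)
    (h : a ^ p + b ^ p = c ^ p) (hc : ¬ (p : ℤ) ∣ c) {η₁ η₂ : 𝓞 K}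
    (h₁ : η₁ ∈ nthRootsFinset p (1 : 𝓞 K)) (h₂ : η₂ ∈ nthRootsFinset p (1 : 𝓞 K))
    (hne : η₁ ≠ η₂) : IsCoprime ((a : 𝓞 K) + η₁ * b) ((a : 𝓞 K) + η₂ * b) := by
  have hz := hζ.toInteger_isPrimitiveRoot
  have hodd : Odd p := hp.out.odd_of_ne_two hp2
  have hprod : (c : 𝓞 K) ^ p = ∏ η ∈ nthRootsFinset p (1 : 𝓞 K), ((a : 𝓞 K) + η * b) := by
    rw [← hz.pow_add_pow_eq_prod_add_mul _ _ hodd]
    exact_mod_cast congrArg (fun x : ℤ => (x : 𝓞 K)) h.symm
  have hπ : Prime (hζ.toInteger - 1) := hζ.zeta_sub_one_prime'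
  have hcπ : ¬ (hζ.toInteger - 1) ∣ (c : 𝓞 K) := by
    rwa [IsCyclotomicExtension.Rat.zeta_sub_one_dvd_intCast_iff' p hζ]
  have hdvd : ∀ η ∈ nthRootsFinset p (1 : 𝓞 K), ((a : 𝓞 K) + η * b) ∣ (c : 𝓞 K) ^ p := by
    intro η hη
    rw [hprod]
    exact Finset.dvd_prod_of_mem _ hη
  apply isCoprime_of_prime_dvd
  · rintro ⟨h0, -⟩
    have := hdvd η₁ h₁
    rw [h0, zero_dvd_iff] at this
    apply hcπ
    rw [pow_eq_zero_iff hp.out.ne_zero] at this
    rw [this]; exact dvd_zero _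
  · intro q hq hq1 hq2
    obtain ⟨r, s, hrs⟩ := hab
    have hrs' : (r : 𝓞 K) * a + s * b = 1 := by exact_mod_cast congrArg (fun x : ℤ => (x : 𝓞 K)) hrs
    have e : η₁ - η₂ = (s : 𝓞 K) * (((a : 𝓞 K) + η₁ * b) - ((a : 𝓞 K) + η₂ * b))
        - r * (η₂ * ((a : 𝓞 K) + η₁ * b) - η₁ * ((a : 𝓞 K) + η₂ * b)) := by
      linear_combination (-(η₁ - η₂)) * hrs'
    have hq3 : q ∣ η₁ - η₂ := by
      rw [e]
      exact dvd_sub ((dvd_sub hq1 hq2).mul_left _)
        ((dvd_sub (hq1.mul_left _) (hq2.mul_left _)).mul_left _)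
    have hass := hz.nthRootsFinset_pairwise_associated_sub_one_sub_of_prime hp.out h₁ h₂ hne
    have hq4 : q ∣ hζ.toInteger - 1 := hq3.trans hass.symm.dvd
    have hq5 : Associated q (hζ.toInteger - 1) := hq.associated_of_dvd hπ hq4
    have : (hζ.toInteger - 1) ∣ (c : 𝓞 K) ^ p := hq5.symm.dvd.trans (hq1.trans (hdvd η₁ h₁))
    exact hcπ (hπ.dvd_of_dvd_pow this)


include hK in
/-- The key congruence of case I: `a + ζ b ≡ ± ζ^k (a + ζ⁻¹ b) mod p`. -/
theorem caseI_congr [IsPrincipalIdealRing (𝓞 K)] (hp2 : 2 < p) {a b c : ℤ}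
    (hab : IsCoprime a b) (h : a ^ p + b ^ p = c ^ p) (hc : ¬ (p : ℤ) ∣ c) :
    ∃ k < p, (p : 𝓞 K) ∣ ((a : 𝓞 K) + hζ.toInteger * b)
        - hζ.toInteger ^ k * ((a : 𝓞 K) + hζ.toInteger ^ (p - 1) * b) ∨
      (p : 𝓞 K) ∣ ((a : 𝓞 K) + hζ.toInteger * b)
        + hζ.toInteger ^ k * ((a : 𝓞 K) + hζ.toInteger ^ (p - 1) * b) := by
  classical
  have hz := hζ.toInteger_isPrimitiveRoot
  have hodd : Odd p := hp.out.odd_of_ne_two hp2.ne'
  set z := hζ.toInteger with hzdef
  have hprod : (c : 𝓞 K) ^ p = ∏ η ∈ nthRootsFinset p (1 : 𝓞 K), ((a : 𝓞 K) + η * b) := by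
    rw [← hz.pow_add_pow_eq_prod_add_mul _ _ hodd]
    exact_mod_cast congrArg (fun x : ℤ => (x : 𝓞 K)) h.symm
  have hzmem : z ∈ nthRootsFinset p (1 : 𝓞 K) := hz.mem_nthRootsFinset hp.out.pos
  rw [← Finset.mul_prod_erase _ _ hzmem] at hprod
  have hcop : IsCoprime ((a : 𝓞 K) + z * b)
      (∏ η ∈ (nthRootsFinset p (1 : 𝓞 K)).erase z, ((a : 𝓞 K) + η * b)) := by
    refine IsCoprime.prod_right fun η hη => ?_
    exact caseI_isCoprime hζ hp2.ne' hab h hc hzmem (Finset.mem_of_mem_erase hη)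
      (Finset.ne_of_mem_erase hη).symm
  obtain ⟨d, u, hd⟩ := exists_associated_pow_of_mul_eq_pow' hcop hprod.symm
  obtain ⟨τ, hτz, hτu⟩ := exists_conj hζ hp2
  obtain ⟨n, hn⟩ := exists_int_pow_sub_dvd hζ d
  have hτz' : τ z = z ^ (p - 1) := by
    have h1 : z ^ (p - 1) * z = 1 := by
      rw [← pow_succ, Nat.sub_add_cancel hp.out.one_le, hz.pow_eq_one]
    calc τ z = τ z * (z ^ (p - 1) * z) := by rw [h1, mul_one]
      _ = (τ z * z) * z ^ (p - 1) := by ring
      _ = z ^ (p - 1) := by rw [hτz, one_mul]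
  have hτn : (p : 𝓞 K) ∣ τ d ^ p - n := by
    have := map_dvd τ hn
    simpa using this
  have hdd : (p : 𝓞 K) ∣ d ^ p - τ d ^ p := by
    have := dvd_sub hn hτn
    simpa using this
  have hτX : (a : 𝓞 K) + z ^ (p - 1) * b = τ d ^ p * τ u := by
    have := congrArg τ hd
    simp only [map_mul, map_pow, map_add, map_intCast, hτz'] at this
    exact this.symm
  obtain ⟨k, hk, hk'⟩ := hτu u
  rw [← hzdef] at hk'
  refine ⟨k, hk, ?_⟩
  rcases hk' with hk' | hk'
  · left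
    rw [hτX, ← hd]
    have : d ^ p * (u : 𝓞 K) - z ^ k * (τ d ^ p * τ u) = (d ^ p - τ d ^ p) * (z ^ k * τ u) := by
      linear_combination (d ^ p) * hk'
    rw [this]
    exact hdd.mul_right _
  · right
    rw [hτX, ← hd]
    have : d ^ p * (u : 𝓞 K) + z ^ k * (τ d ^ p * τ u) = (d ^ p - τ d ^ p) * (- z ^ k * τ u) := by
      linear_combination (d ^ p) * hk'
    rw [this]
    exact hdd.mul_right _


include hK hζ in
theorem caseI_aux [IsPrincipalIdealRing (𝓞 K)] (hp5 : 5 ≤ p) {a b c : ℤ}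
    (hab : IsCoprime a b) (h : a ^ p + b ^ p = c ^ p) (ha : ¬ (p : ℤ) ∣ a) (hb : ¬ (p : ℤ) ∣ b)
    (hc : ¬ (p : ℤ) ∣ c) : (p : ℤ) ∣ a - b := by
  classical
  have hz := hζ.toInteger_isPrimitiveRoot
  have hp2 : 2 < p := by omega
  have hodd : Odd p := hp.out.odd_of_ne_two hp2.ne'
  obtain ⟨k, hk, hk'⟩ := caseI_congr hζ hp2 hab h hc
  set z := hζ.toInteger with hzdef
  rcases hk' with hk' | hk'
  · set k' := (k + (p - 1)) % p with hk'def
    have hk'lt : k' < p := Nat.mod_lt _ hp.out.pos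
    have hzk : z ^ (k + (p - 1)) = z ^ k' := by
      rw [hk'def, hz.eq_orderOf, pow_mod_orderOf]
    let f : ℕ → ℤ := fun i => (if i = 0 then a else 0) + (if i = 1 then b else 0)
      - (if i = k then a else 0) - (if i = k' then b else 0)
    have hsum : ∑ i ∈ range p, (f i : 𝓞 K) * z ^ i
        = ((a : 𝓞 K) + z * b) - z ^ k * ((a : 𝓞 K) + z ^ (p - 1) * b) := by
      have e : z ^ k * ((a : 𝓞 K) + z ^ (p - 1) * b) = a * z ^ k + b * z ^ k' := by
        rw [← hzk, pow_add]; ring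
      rw [e]
      simp only [f, Int.cast_sub, Int.cast_add, Int.cast_ite, Int.cast_zero, sub_mul, add_mul,
        ite_mul, zero_mul, Finset.sum_sub_distrib, Finset.sum_add_distrib, Finset.sum_ite_eq',
        Finset.mem_range]
      rw [if_pos hp.out.pos, if_pos hp.out.one_lt, if_pos hk, if_pos hk'lt]
      ring
    rw [← hsum] at hk'
    have hcong := dvd_sub_of_dvd_sum hζ f hk'
    obtain ⟨i₀, hi₀, hi₀'⟩ : ∃ i₀ ∈ range p, i₀ ∉ ({0, 1, k, k'} : Finset ℕ) := by
      apply Finset.exists_mem_notMem_of_card_lt_card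
      calc ({0, 1, k, k'} : Finset ℕ).card ≤ 4 := Finset.card_le_four
        _ < p := by omega
        _ = (range p).card := (Finset.card_range p).symm
    simp only [Finset.mem_insert, Finset.mem_singleton, not_or] at hi₀'
    obtain ⟨h0, h1, h2, h3⟩ := hi₀'
    have hf0 : f i₀ = 0 := by simp [f, h0, h1, h2, h3]
    have hall : ∀ i < p, (p : ℤ) ∣ f i := by
      intro i hi
      have := hcong i hi i₀ (Finset.mem_range.mp hi₀)
      rwa [hf0, sub_zero] at this
    rcases Nat.lt_or_ge k 1 with hk0 | hk1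
    · -- k = 0
      have hk0 : k = 0 := by omega
      have hk'v : k' = p - 1 := by
        rw [hk'def, hk0, zero_add]; exact Nat.mod_eq_of_lt (by omega)
      have := hall 1 hp.out.one_lt
      have hf1 : f 1 = b := by
        have e1 : (1 : ℕ) ≠ k := by omega
        have e2 : (1 : ℕ) ≠ k' := by omega
        simp [f, e1, e2]
      rw [hf1] at this
      exact absurd this hb
    · have hk'v : k' = k - 1 := by
        rw [hk'def]
        have : k + (p - 1) = (k - 1) + p := by omega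
        rw [this, Nat.add_mod_right]; exact Nat.mod_eq_of_lt (by omega)
      rcases Nat.lt_or_ge k 2 with hk2 | hk2
      · -- k = 1
        have hk1' : k = 1 := by omega
        have := hall 0 hp.out.pos
        have hf0' : f 0 = a - b := by
          have e1 : (0 : ℕ) ≠ k := by omega
          have e2 : (0 : ℕ) = k' := by omega
          simp [f, e1, ← e2]
        rwa [hf0'] at this
      · have := hall 0 hp.out.pos
        have hf0' : f 0 = a := by
          have e1 : (0 : ℕ) ≠ k := by omega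
          have e2 : (0 : ℕ) ≠ k' := by omega
          simp [f, e1, e2]
        rw [hf0'] at this
        exact absurd this ha
  · -- the sign `-1` is impossible
    exfalso
    have hπp : (z - 1) ∣ (p : 𝓞 K) := hz.sub_one_dvd_natCast hp.out.one_lt
    have h1 : (z - 1) ∣ ((a : 𝓞 K) + z * b) + z ^ k * ((a : 𝓞 K) + z ^ (p - 1) * b) :=
      hπp.trans hk'
    have hzk : (z - 1) ∣ z ^ k - 1 := by simpa using sub_dvd_pow_sub_pow z 1 k
    have hzp : (z - 1) ∣ z ^ (p - 1) - 1 := by simpa using sub_dvd_pow_sub_pow z 1 (p - 1)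
    have h2 : (z - 1) ∣ ((2 * (a + b) : ℤ) : 𝓞 K) := by
      have e : ((2 * (a + b) : ℤ) : 𝓞 K) = (((a : 𝓞 K) + z * b)
          + z ^ k * ((a : 𝓞 K) + z ^ (p - 1) * b)) - (z - 1) * b
          - (z ^ k - 1) * ((a : 𝓞 K) + z ^ (p - 1) * b) - (z ^ (p - 1) - 1) * b := by
        push_cast; ring
      rw [e]
      exact dvd_sub (dvd_sub (dvd_sub h1 (Dvd.intro _ rfl)) (hzk.mul_right _)) (hzp.mul_right _)
    rw [hzdef, IsCyclotomicExtension.Rat.zeta_sub_one_dvd_intCast_iff' p hζ] at h2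
    have hpp : Prime (p : ℤ) := Nat.prime_iff_prime_int.mp hp.out
    rcases hpp.dvd_or_dvd h2 with h3 | h3
    · have : (p : ℤ) ≤ 2 := Int.le_of_dvd (by norm_num) h3
      omega
    · have h4 : a + b ∣ a ^ p + b ^ p := hodd.add_dvd_pow_add_pow a b
      rw [h] at h4
      exact hc (hpp.dvd_of_dvd_pow (h3.trans h4))


/-- Case I of Fermat's Last Theorem for a prime `p ≥ 5` such that `ℤ[ζ_p]` is a PID. -/
theorem caseI {p : ℕ} [hp : Fact p.Prime] (hp5 : 5 ≤ p) (K : Type) [Field K] [NumberField K]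
    [IsCyclotomicExtension {p} ℚ K] [IsPrincipalIdealRing (𝓞 K)] {a b c : ℤ}
    (hab : IsCoprime a b) (h : a ^ p + b ^ p = c ^ p) (hpabc : ¬ (p : ℤ) ∣ a * b * c) : False := by
  have hζ := IsCyclotomicExtension.zeta_spec p ℚ K
  have hodd : Odd p := hp.out.odd_of_ne_two (by omega)
  have hpp : Prime (p : ℤ) := Nat.prime_iff_prime_int.mp hp.out
  have ha : ¬ (p : ℤ) ∣ a := fun h' => hpabc ((h'.mul_right b).mul_right c)
  have hb : ¬ (p : ℤ) ∣ b := fun h' => hpabc ((h'.mul_left a).mul_right c)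
  have hc : ¬ (p : ℤ) ∣ c := fun h' => hpabc (h'.mul_left (a * b))
  have h1 : (p : ℤ) ∣ a - b := caseI_aux hζ hp5 hab h ha hb hc
  have hac : IsCoprime a (-c) := by
    rw [IsCoprime.neg_right_iff]
    have h2 : IsCoprime a (c ^ p) := by
      rw [← h]
      have h3 : IsCoprime a (b ^ p) := hab.pow_right
      have e : a ^ p + b ^ p = b ^ p + a * a ^ (p - 1) := by
        rw [← pow_succ', Nat.sub_add_cancel hp.out.one_le]; ring
      rw [e]
      exact h3.add_mul_left_right _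
    exact (IsCoprime.pow_right_iff hp.out.pos).mp h2
  have h' : a ^ p + (-c) ^ p = (-b) ^ p := by
    rw [hodd.neg_pow, hodd.neg_pow]; linarith
  have h2 : (p : ℤ) ∣ a - (-c) :=
    caseI_aux hζ hp5 hac h' ha (by rwa [dvd_neg]) (by rwa [dvd_neg])
  -- Fermat's little theorem
  have h3 : ((a : ZMod p)) + b = c := by
    have := congrArg (fun x : ℤ => (x : ZMod p)) h
    simpa [ZMod.pow_card] using this
  have h1' : (a : ZMod p) = b := by
    have := (ZMod.intCast_zmod_eq_zero_iff_dvd (a - b) p).mpr h1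
    push_cast at this
    exact sub_eq_zero.mp this
  have h2' : (a : ZMod p) = - c := by
    have := (ZMod.intCast_zmod_eq_zero_iff_dvd (a - (-c)) p).mpr h2
    push_cast at this
    linear_combination this
  have h4 : ((3 * a : ℤ) : ZMod p) = 0 := by
    push_cast
    linear_combination h3 + h1' + h2'
  rw [ZMod.intCast_zmod_eq_zero_iff_dvd] at h4
  rcases hpp.dvd_or_dvd h4 with h5 | h5
  · have : (p : ℤ) ≤ 3 := Int.le_of_dvd (by norm_num) h5
    omega
  · exact ha h5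

end Fermat.Agent.Lib.Kummer
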