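import Fermat.Agent.Lib.Kummer.Basic

set_option autoImplicit false

namespace Fermat.Agent.Lib.Kummer

open NumberField Polynomial Finset

variable {p : ℕ} [hp : Fact p.Prime] {K : Type} [Field K] [NumberField K]
  [hK : IsCyclotomicExtension {p} ℚ K] {ζ : K} (hζ : IsPrimitiveRoot ζ p)

include hK in
/-- If `ζ - 1` divides `x ^ p + y ^ p`, it divides all the factors `x + η y`. -/
theorem caseII_dvd_factor (hp2 : p ≠ 2) {x y : 𝓞 K}
    (h : (hζ.toInteger - 1) ∣ x ^ p + y ^ p) :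
    ∀ η ∈ nthRootsFinset p (1 : 𝓞 K), (hζ.toInteger - 1) ∣ x + η * y := by
  have hz := hζ.toInteger_isPrimitiveRoot
  have hodd : Odd p := hp.out.odd_of_ne_two hp2
  have hπ : Prime (hζ.toInteger - 1) := hζ.zeta_sub_one_prime'
  rw [hz.pow_add_pow_eq_prod_add_mul _ _ hodd] at h
  obtain ⟨η₀, hη₀, h₀⟩ := hπ.exists_mem_finset_dvd h
  intro η hη
  have e : x + η * y = (x + η₀ * y) + (η - η₀) * y := by ring
  rw [e]
  exact dvd_add h₀ ((hz.sub_one_dvd_sub hp.out hη hη₀).mul_right _)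

include hK in
/-- One of the factors `x + η y` is divisible by `(ζ - 1) ^ 2`. -/
theorem caseII_exists_sq_dvd (hp2 : p ≠ 2) {x y : 𝓞 K} (hy : ¬ (hζ.toInteger - 1) ∣ y)
    (h : ∀ η ∈ nthRootsFinset p (1 : 𝓞 K), (hζ.toInteger - 1) ∣ x + η * y) :
    ∃ η ∈ nthRootsFinset p (1 : 𝓞 K), (hζ.toInteger - 1) ^ 2 ∣ x + η * y := by
  classical
  have hz := hζ.toInteger_isPrimitiveRoot
  have hπ : Prime (hζ.toInteger - 1) := hζ.zeta_sub_one_prime'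
  set π := hζ.toInteger - 1 with hπdef
  choose! a ha using h
  let g : (nthRootsFinset p (1 : 𝓞 K)) → 𝓞 K ⧸ Ideal.span {π} :=
    fun η => Ideal.Quotient.mk _ (a η)
  have hfin : Finite (𝓞 K ⧸ Ideal.span {π}) :=
    hζ.finite_quotient_toInteger_sub_one hp.out.one_lt
  have hcard : Nat.card (𝓞 K ⧸ Ideal.span {π}) = p := by
    rw [hπdef, hζ.card_quotient_toInteger_sub_one, hζ.norm_toInteger_sub_one_of_prime_ne_two' hp2]
    simp
  have hinj : Function.Injective g := by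
    intro η₁ η₂ h12
    by_contra hne
    have hne' : (η₁ : 𝓞 K) ≠ η₂ := fun h => hne (Subtype.ext h)
    rw [Ideal.Quotient.eq, Ideal.mem_span_singleton] at h12
    obtain ⟨u, hu⟩ := hz.nthRootsFinset_pairwise_associated_sub_one_sub_of_prime hp.out
      η₁.2 η₂.2 hne'
    have e : π * (a η₁ - a η₂) = π * (u * y) := by
      rw [mul_sub, ← ha _ η₁.2, ← ha _ η₂.2, ← mul_assoc, hu]; ring
    have e' := mul_left_cancel₀ hπ.ne_zero e
    rw [e'] at h12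
    exact hy ((Units.dvd_mul_left).mp (by rwa [mul_comm] at h12))
  have hbij : Function.Bijective g := by
    apply hinj.bijective_of_nat_card_le
    rw [hcard, Nat.card_eq_fintype_card, Fintype.card_coe, hz.card_nthRootsFinset]
  obtain ⟨η, hη⟩ := hbij.2 0
  refine ⟨η, η.2, ?_⟩
  rw [Ideal.Quotient.eq_zero_iff_mem, Ideal.mem_span_singleton] at hη
  rw [ha _ η.2, pow_two]
  exact mul_dvd_mul_left _ hη


include hK in
/-- The descent step, assuming `(ζ - 1) ^ 2 ∣ x + y`. -/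
theorem caseII_descent_aux [IsPrincipalIdealRing (𝓞 K)] (hKum : KummerLemma p K) (hp2 : p ≠ 2)
    {m : ℕ} {x y w : 𝓞 K} {ε : (𝓞 K)ˣ} (hxy : IsCoprime x y)
    (hy : ¬ (hζ.toInteger - 1) ∣ y) (hw : ¬ (hζ.toInteger - 1) ∣ w)
    (e : x ^ p + y ^ p = ε * ((hζ.toInteger - 1) ^ (m + 1) * w) ^ p)
    (hsq : (hζ.toInteger - 1) ^ 2 ∣ x + y) :
    1 ≤ m ∧ ∃ (x' y' w' : 𝓞 K) (ε' : (𝓞 K)ˣ), IsCoprime x' y' ∧
      ¬ (hζ.toInteger - 1) ∣ y' ∧ ¬ (hζ.toInteger - 1) ∣ w' ∧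
      x' ^ p + y' ^ p = ε' * ((hζ.toInteger - 1) ^ m * w') ^ p := by
  classical
  have hz := hζ.toInteger_isPrimitiveRoot
  have hodd : Odd p := hp.out.odd_of_ne_two hp2
  have hp0 : p ≠ 0 := hp.out.ne_zero
  have hp3 : 3 ≤ p := by
    have := hp.out.two_le
    omega
  have hπ : Prime (hζ.toInteger - 1) := hζ.zeta_sub_one_prime'
  set z := hζ.toInteger with hzdef
  set π := z - 1 with hπdef
  set μ := nthRootsFinset p (1 : 𝓞 K) with hμ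
  have hπdvd : π ∣ x ^ p + y ^ p := by
    rw [e, mul_pow, ← pow_mul]
    refine Dvd.dvd.mul_left (Dvd.dvd.mul_right (dvd_pow_self _ ?_) _) _
    exact Nat.mul_ne_zero (Nat.succ_ne_zero _) hp0
  have hdiv := caseII_dvd_factor hζ hp2 hπdvd
  choose! a ha using hdiv
  have h1μ : (1 : 𝓞 K) ∈ μ := by
    rw [hμ, mem_nthRootsFinset hp.out.pos]; simp
  -- (0) `π ∣ a 1`
  have ha1 : π ∣ a 1 := by
    have h1 := ha 1 h1μ
    rw [one_mul] at h1
    rw [h1, pow_two] at hsq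
    exact (mul_dvd_mul_iff_left hπ.ne_zero).mp hsq
  -- differences
  have hdiff : ∀ η₁ ∈ μ, ∀ η₂ ∈ μ, η₁ ≠ η₂ → ∃ u : (𝓞 K)ˣ, a η₁ - a η₂ = u * y ∧
      η₂ * a η₁ - η₁ * a η₂ = - (u * x) := by
    intro η₁ h₁ η₂ h₂ hne
    obtain ⟨u, hu⟩ := hz.nthRootsFinset_pairwise_associated_sub_one_sub_of_prime hp.out
      h₁ h₂ hne
    refine ⟨u, ?_, ?_⟩
    · apply mul_left_cancel₀ hπ.ne_zero
      rw [mul_sub, ← ha _ h₁, ← ha _ h₂, ← mul_assoc, hu]; ring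
    · apply mul_left_cancel₀ hπ.ne_zero
      have : π * (η₂ * a η₁ - η₁ * a η₂) = η₂ * (π * a η₁) - η₁ * (π * a η₂) := by ring
      rw [this, ← ha _ h₁, ← ha _ h₂]
      have : π * -(↑u * x) = - ((π * u) * x) := by ring
      rw [this, hu]; ring
  -- (i) `π ∤ a η` for `η ≠ 1`
  have hnd : ∀ η ∈ μ, η ≠ 1 → ¬ π ∣ a η := by
    intro η hη hne hdvd
    obtain ⟨u, hu, -⟩ := hdiff η hη 1 h1μ hne
    have : π ∣ (u : 𝓞 K) * y := hu ▸ dvd_sub hdvd ha1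
    exact hy ((Units.dvd_mul_left).mp (by rwa [mul_comm] at this))
  -- (ii) pairwise coprime
  have hcop : ∀ η₁ ∈ μ, ∀ η₂ ∈ μ, η₁ ≠ η₂ → IsCoprime (a η₁) (a η₂) := by
    intro η₁ h₁ η₂ h₂ hne
    obtain ⟨u, hu1, hu2⟩ := hdiff η₁ h₁ η₂ h₂ hne
    obtain ⟨r, s, hrs⟩ := hxy
    refine ⟨(↑u⁻¹ : 𝓞 K) * (s - r * η₂), (↑u⁻¹ : 𝓞 K) * (r * η₁ - s), ?_⟩
    have : (↑u⁻¹ : 𝓞 K) * (s - r * η₂) * a η₁ + (↑u⁻¹ : 𝓞 K) * (r * η₁ - s) * a η₂
        = (↑u⁻¹ : 𝓞 K) * (s * (a η₁ - a η₂) - r * (η₂ * a η₁ - η₁ * a η₂)) := by ring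
    rw [this, hu1, hu2]
    have : (↑u⁻¹ : 𝓞 K) * (s * (↑u * y) - r * -(↑u * x)) = (↑u⁻¹ * ↑u : 𝓞 K) * (r * x + s * y) := by
      ring
    rw [this, hrs, Units.inv_mul, one_mul]
  -- (iii) the product
  have hprod : ∏ η ∈ μ, a η = ε * (π ^ m * w) ^ p := by
    apply mul_left_cancel₀ (pow_ne_zero p hπ.ne_zero)
    have h1 : π ^ p * ∏ η ∈ μ, a η = ∏ η ∈ μ, (x + η * y) := by
      rw [← hz.card_nthRootsFinset, ← Finset.prod_const, ← Finset.prod_mul_distrib]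
      exact Finset.prod_congr rfl fun η hη => (ha η hη).symm
    rw [h1, ← hz.pow_add_pow_eq_prod_add_mul _ _ hodd, e]
    ring
  -- (iv) each factor is a `p`-th power up to a unit
  have hpow : ∀ η ∈ μ, ∃ d : 𝓞 K, Associated (d ^ p) (a η) := by
    intro η hη
    have hc : IsCoprime (a η) (∏ η' ∈ μ.erase η, a η') :=
      IsCoprime.prod_right fun η' hη' =>
        hcop η hη η' (Finset.mem_of_mem_erase hη') (Finset.ne_of_mem_erase hη').symm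
    refine exists_associated_pow_of_associated_pow_mul hc (c := π ^ m * w) ?_
    rw [Finset.mul_prod_erase _ _ hη, hprod]
    exact ⟨ε, by ring⟩
  -- `π` does not divide the product of the other factors
  have hnd' : ¬ π ∣ ∏ η ∈ μ.erase 1, a η := by
    intro h
    obtain ⟨η, hη, h'⟩ := hπ.exists_mem_finset_dvd h
    exact hnd η (Finset.mem_of_mem_erase hη) (Finset.ne_of_mem_erase hη) h'
  have hprod1 : a 1 * ∏ η ∈ μ.erase 1, a η = ε * (π ^ m * w) ^ p := by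
    rw [Finset.mul_prod_erase _ _ h1μ, hprod]
  -- (vi) `1 ≤ m`
  have hm : 1 ≤ m := by
    by_contra hm
    have hm0 : m = 0 := by omega
    have : π ∣ (ε : 𝓞 K) * (π ^ m * w) ^ p := hprod1 ▸ ha1.mul_right _
    rw [hm0, pow_zero, one_mul] at this
    exact hw (hπ.dvd_of_dvd_pow ((Units.dvd_mul_left).mp (by rwa [mul_comm] at this)))
  refine ⟨hm, ?_⟩
  -- (v) the factor `a 1`
  obtain ⟨d₀, u₀, hd₀⟩ := hpow 1 h1μ
  have hπm : (π ^ m) ^ p ∣ a 1 := by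
    rw [← pow_mul]
    apply hπ.pow_dvd_of_dvd_mul_right _ hnd'
    rw [hprod1, mul_pow, ← pow_mul]
    exact Dvd.dvd.mul_left (Dvd.intro _ rfl) _
  have hπm' : π ^ m ∣ d₀ := by
    rw [← hd₀] at hπm
    have : (π ^ m) ^ p ∣ d₀ ^ p := (Units.dvd_mul_right).mp hπm
    exact (IsIntegrallyClosed.pow_dvd_pow_iff hp0).mp this
  obtain ⟨d₁, hd₁⟩ := hπm'
  have hd₁π : ¬ π ∣ d₁ := by
    rintro ⟨t, ht⟩
    have h1 : (π ^ m) ^ p * (π ^ p * (t ^ p * u₀ * ∏ η ∈ μ.erase 1, a η))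
        = (π ^ m) ^ p * (ε * w ^ p) := by
      have : a 1 = (π ^ m) ^ p * (π ^ p * (t ^ p * u₀)) := by
        rw [← hd₀, hd₁, ht]; ring
      calc (π ^ m) ^ p * (π ^ p * (t ^ p * u₀ * ∏ η ∈ μ.erase 1, a η))
          = a 1 * ∏ η ∈ μ.erase 1, a η := by rw [this]; ring
        _ = (π ^ m) ^ p * (ε * w ^ p) := by rw [hprod1]; ring
    have h2 := mul_left_cancel₀ (pow_ne_zero p (pow_ne_zero m hπ.ne_zero)) h1
    have h3 : π ∣ (ε : 𝓞 K) * w ^ p := by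
      rw [← h2]
      exact Dvd.dvd.mul_right (dvd_pow_self _ hp0) _
    exact hw (hπ.dvd_of_dvd_pow ((Units.dvd_mul_left).mp (by rwa [mul_comm] at h3)))
  -- (vii) the two other factors
  have hzμ : z ∈ μ := hz.mem_nthRootsFinset hp.out.pos
  have hzz : z * z ^ (p - 1) = 1 := by
    rw [← pow_succ', Nat.sub_add_cancel hp.out.one_le, hz.pow_eq_one]
  have hz'μ : z ^ (p - 1) ∈ μ := by
    rw [hμ, mem_nthRootsFinset hp.out.pos, ← pow_mul, mul_comm, pow_mul, hz.pow_eq_one, one_pow]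
  have hz1 : z ≠ 1 := hz.ne_one hp.out.one_lt
  have hz'1 : z ^ (p - 1) ≠ 1 := by
    intro h
    rw [h, mul_one] at hzz
    exact hz1 hzz
  have hzz' : z ≠ z ^ (p - 1) := by
    intro h
    have h2 : z ^ 2 = 1 := by rw [pow_two]; nth_rewrite 2 [h]; exact hzz
    have := hz.dvd_of_pow_eq_one 2 h2
    have := Nat.le_of_dvd (by norm_num) this
    omega
  have hrel : a z + z * a (z ^ (p - 1)) = (1 + z) * a 1 := by
    apply mul_left_cancel₀ hπ.ne_zero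
    have : π * (a z + z * a (z ^ (p - 1))) = π * a z + z * (π * a (z ^ (p - 1))) := by ring
    rw [this, ← ha _ hzμ, ← ha _ hz'μ]
    have : π * ((1 + z) * a 1) = (1 + z) * (π * a 1) := by ring
    rw [this, ← ha _ h1μ]
    linear_combination y * hzz
  obtain ⟨d₂, u₂, hd₂⟩ := hpow z hzμ
  obtain ⟨d₃, u₃, hd₃⟩ := hpow _ hz'μ
  have hd₃π : ¬ π ∣ d₃ := by
    intro h
    apply hnd _ hz'μ hz'1
    rw [← hd₃]
    exact Dvd.dvd.mul_right (Dvd.dvd.pow h hp0) _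
  -- units
  let zu : (𝓞 K)ˣ := (hz.isUnit hp0).unit
  have hzu : (zu : 𝓞 K) = z := rfl
  have h2cop : Nat.Coprime 2 p := by
    rw [Nat.coprime_comm]
    exact (Nat.coprime_primes hp.out Nat.prime_two).mpr hp2
  have h1z : IsUnit (1 + z) := by
    have := hz.geom_sum_isUnit hp.out.two_le h2cop
    simpa [Finset.sum_range_succ] using this
  let su : (𝓞 K)ˣ := h1z.unit
  have hsu : (su : 𝓞 K) = 1 + z := rfl
  let ε₁ : (𝓞 K)ˣ := zu * u₃ * u₂⁻¹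
  let ε₂ : (𝓞 K)ˣ := su * u₀ * u₂⁻¹
  have hmain : d₂ ^ p + ε₁ * d₃ ^ p = ε₂ * (π ^ m * d₁) ^ p := by
    have h1 : (u₂ : 𝓞 K) * (d₂ ^ p + ε₁ * d₃ ^ p) = (u₂ : 𝓞 K) * (ε₂ * (π ^ m * d₁) ^ p) := by
      have e1 : (u₂ : 𝓞 K) * (d₂ ^ p + ε₁ * d₃ ^ p)
          = d₂ ^ p * u₂ + z * (d₃ ^ p * u₃) * (u₂ * ↑u₂⁻¹ : 𝓞 K) := by
        simp only [ε₁, Units.val_mul, hzu]; ring
      have e2 : (u₂ : 𝓞 K) * (ε₂ * (π ^ m * d₁) ^ p)
          = (1 + z) * ((π ^ m * d₁) ^ p * u₀) * (u₂ * ↑u₂⁻¹ : 𝓞 K) := by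
        simp only [ε₂, Units.val_mul, hsu]; ring
      rw [e1, e2, Units.mul_inv, mul_one, mul_one, hd₂, hd₃, ← hd₁, hd₀, hrel]
    exact mul_left_cancel₀ u₂.ne_zero h1
  -- (ix) Kummer's lemma applies to `ε₁`
  have hpπ : (p : 𝓞 K) ∣ (π ^ m * d₁) ^ p := by
    have h1 : (p : 𝓞 K) ∣ π ^ (p - 1) :=
      (IsCyclotomicExtension.Rat.associated_zeta_sub_one_pow_prime p hζ).symm.dvd
    rw [mul_pow, ← pow_mul]
    refine Dvd.dvd.mul_right (h1.trans (pow_dvd_pow _ ?_)) _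
    calc p - 1 ≤ p := Nat.sub_le _ _
      _ = 1 * p := (one_mul p).symm
      _ ≤ m * p := Nat.mul_le_mul_right _ hm
  obtain ⟨n₂, hn₂⟩ := exists_int_pow_sub_dvd hζ d₂
  obtain ⟨n₃, hn₃⟩ := exists_int_pow_sub_dvd hζ d₃
  have hπp : π ∣ (p : 𝓞 K) := hz.sub_one_dvd_natCast hp.out.one_lt
  have hn₃p : ¬ (p : ℤ) ∣ n₃ := by
    intro h
    rw [← IsCyclotomicExtension.Rat.zeta_sub_one_dvd_intCast_iff' p hζ] at h
    have : π ∣ d₃ ^ p := by
      have := dvd_add (hπp.trans hn₃) h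
      simpa using this
    exact hd₃π (hπ.dvd_of_dvd_pow this)
  have hcop3 : IsCoprime n₃ (p : ℤ) := by
    rw [isCoprime_comm]
    exact (Nat.prime_iff_prime_int.mp hp.out).coprime_iff_not_dvd.mpr hn₃p
  obtain ⟨r, s, hrs⟩ := hcop3
  have hrs' : (r : 𝓞 K) * n₃ + s * p = 1 := by
    exact_mod_cast congrArg (fun t : ℤ => (t : 𝓞 K)) hrs
  have hkey : (p : 𝓞 K) ∣ (n₂ : 𝓞 K) + ε₁ * n₃ := by
    have e1 : (n₂ : 𝓞 K) + ε₁ * n₃ = ε₂ * (π ^ m * d₁) ^ p - (d₂ ^ p - n₂) - ε₁ * (d₃ ^ p - n₃) := by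
      rw [← hmain]; ring
    rw [e1]
    exact dvd_sub (dvd_sub (hpπ.mul_left _) hn₂) (hn₃.mul_left _)
  obtain ⟨v, hv⟩ := hKum ε₁ ⟨- r * n₂, by
    have e1 : (ε₁ : 𝓞 K) - ((- r * n₂ : ℤ) : 𝓞 K)
        = r * ((n₂ : 𝓞 K) + ε₁ * n₃) + (p : 𝓞 K) * (s * ε₁) := by
      push_cast
      linear_combination (-(ε₁ : 𝓞 K)) * hrs'
    rw [e1]
    exact dvd_add (hkey.mul_left _) (Dvd.intro _ rfl)⟩
  refine ⟨d₂, v * d₃, d₁, ε₂, ?_, ?_, hd₁π, ?_⟩
  · have h1 : IsCoprime (d₂ ^ p * u₂) (d₃ ^ p * u₃) := by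
      rw [hd₂, hd₃]; exact hcop _ hzμ _ hz'μ hzz'
    have h2 : IsCoprime (d₂ ^ p) (d₃ ^ p) :=
      (h1.of_mul_left_left).of_mul_right_left
    have h3 : IsCoprime d₂ d₃ := (IsCoprime.pow_iff hp.out.pos hp.out.pos).mp h2
    exact (isCoprime_mul_unit_left_right v.isUnit _ _).mpr h3
  · intro h
    exact hd₃π ((Units.dvd_mul_left).mp (by rwa [mul_comm] at h))
  · rw [mul_pow, ← hmain, hv]
    simp


include hK in
/-- The descent step. -/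
theorem caseII_descent [IsPrincipalIdealRing (𝓞 K)] (hKum : KummerLemma p K) (hp2 : p ≠ 2)
    {m : ℕ} {x y w : 𝓞 K} {ε : (𝓞 K)ˣ} (hxy : IsCoprime x y)
    (hy : ¬ (hζ.toInteger - 1) ∣ y) (hw : ¬ (hζ.toInteger - 1) ∣ w)
    (e : x ^ p + y ^ p = ε * ((hζ.toInteger - 1) ^ (m + 1) * w) ^ p) :
    1 ≤ m ∧ ∃ (x' y' w' : 𝓞 K) (ε' : (𝓞 K)ˣ), IsCoprime x' y' ∧
      ¬ (hζ.toInteger - 1) ∣ y' ∧ ¬ (hζ.toInteger - 1) ∣ w' ∧
      x' ^ p + y' ^ p = ε' * ((hζ.toInteger - 1) ^ m * w') ^ p := by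
  have hp0 : p ≠ 0 := hp.out.ne_zero
  have hπdvd : (hζ.toInteger - 1) ∣ x ^ p + y ^ p := by
    rw [e, mul_pow, ← pow_mul]
    refine Dvd.dvd.mul_left (Dvd.dvd.mul_right (dvd_pow_self _ ?_) _) _
    exact Nat.mul_ne_zero (Nat.succ_ne_zero _) hp0
  obtain ⟨η, hη, hsq⟩ := caseII_exists_sq_dvd hζ hp2 hy (caseII_dvd_factor hζ hp2 hπdvd)
  have hη1 : η ^ p = 1 := (mem_nthRootsFinset hp.out.pos _).mp hη
  have hηu : IsUnit η := IsUnit.of_pow_eq_one hη1 hp0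
  refine caseII_descent_aux hζ hKum hp2 (x := x) (y := η * y) (w := w) (ε := ε)
    ((isCoprime_mul_unit_left_right hηu _ _).mpr hxy) ?_ hw ?_ hsq
  · intro h
    exact hy ((hηu.dvd_mul_left).mp h)
  · rw [mul_pow, hη1, one_mul, e]

include hK in
/-- There is no solution to the generalized Fermat equation of case II. -/
theorem caseII_no_solution [IsPrincipalIdealRing (𝓞 K)] (hKum : KummerLemma p K) (hp2 : p ≠ 2)
    (m : ℕ) : ∀ (x y w : 𝓞 K) (ε : (𝓞 K)ˣ), IsCoprime x y →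
    ¬ (hζ.toInteger - 1) ∣ y → ¬ (hζ.toInteger - 1) ∣ w →
    x ^ p + y ^ p ≠ ε * ((hζ.toInteger - 1) ^ (m + 1) * w) ^ p := by
  induction m with
  | zero =>
    intro x y w ε hxy hy hw e
    have := (caseII_descent hζ hKum hp2 hxy hy hw e).1
    omega
  | succ m ih =>
    intro x y w ε hxy hy hw e
    obtain ⟨-, x', y', w', ε', hxy', hy', hw', e'⟩ := caseII_descent hζ hKum hp2 hxy hy hw e
    exact ih x' y' w' ε' hxy' hy' hw' e'

/-- Case II of Fermat's Last Theorem for an odd prime `p` such that `ℤ[ζ_p]` is a PID and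
Kummer's lemma holds. -/
theorem caseII {p : ℕ} [hp : Fact p.Prime] (hp5 : 5 ≤ p) (K : Type) [Field K] [NumberField K]
    [IsCyclotomicExtension {p} ℚ K] [IsPrincipalIdealRing (𝓞 K)] (hK : KummerLemma p K)
    {a b c : ℤ} (hab : IsCoprime a b) (h : a ^ p + b ^ p = c ^ p) (hc : c ≠ 0)
    (hpc : (p : ℤ) ∣ c) : False := by
  have hζ := IsCyclotomicExtension.zeta_spec p ℚ K
  have hp2 : p ≠ 2 := by omega
  have hp0 : p ≠ 0 := hp.out.ne_zero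
  have hpp : Prime (p : ℤ) := Nat.prime_iff_prime_int.mp hp.out
  -- `p ∤ b`
  have hb : ¬ (p : ℤ) ∣ b := by
    intro hb
    have ha : (p : ℤ) ∣ a := by
      have h1 : (p : ℤ) ∣ a ^ p := by
        have : a ^ p = c ^ p - b ^ p := by linarith
        rw [this]
        exact dvd_sub (Dvd.dvd.pow hpc hp0) (Dvd.dvd.pow hb hp0)
      exact hpp.dvd_of_dvd_pow h1
    exact hpp.not_isUnit (hab.isUnit_of_dvd' ha hb)
  -- write `c = p ^ k * c'`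
  obtain ⟨c', hcc', hc'⟩ :=
    (Int.finiteMultiplicity_iff.mpr ⟨by
      have := hp.out.one_lt
      simp only [Int.natAbs_natCast]; omega, hc⟩ :
      FiniteMultiplicity (p : ℤ) c).exists_eq_pow_mul_and_not_dvd
  generalize multiplicity (p : ℤ) c = k at hcc'
  have hk : k ≠ 0 := by
    rintro rfl
    rw [pow_zero, one_mul] at hcc'
    exact hc' (hcc' ▸ hpc)
  obtain ⟨u, hu⟩ := IsCyclotomicExtension.Rat.associated_zeta_sub_one_pow_prime p hζ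
  have hm : ∃ m, (p - 1) * k = m + 1 := by
    refine ⟨(p - 1) * k - 1, ?_⟩
    have : 0 < (p - 1) * k := Nat.mul_pos (by omega) (Nat.pos_of_ne_zero hk)
    omega
  obtain ⟨m, hm⟩ := hm
  refine caseII_no_solution hζ hK hp2 m (a : 𝓞 K) (b : 𝓞 K) (c' : 𝓞 K) (u ^ (k * p)) ?_ ?_ ?_ ?_
  · exact hab.map (Int.castRingHom (𝓞 K))
  · rwa [IsCyclotomicExtension.Rat.zeta_sub_one_dvd_intCast_iff' p hζ]
  · rwa [IsCyclotomicExtension.Rat.zeta_sub_one_dvd_intCast_iff' p hζ]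
  · have h1 : (a : 𝓞 K) ^ p + (b : 𝓞 K) ^ p = (c : 𝓞 K) ^ p := by
      exact_mod_cast congrArg (fun t : ℤ => (t : 𝓞 K)) h
    rw [h1, hcc', ← hm]
    push_cast
    rw [← hu]
    ring

end Fermat.Agent.Lib.Kummer
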