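import Mathlib

set_option autoImplicit false

/-!
# Case I of Fermat's Last Theorem for `p = 5, 7, 11, 13` via Sophie Germain's theorem
-/

namespace Fermat.Agent.Lib.Kummer

open Finset

/-- The cofactor `φ(y,z) = (y^p + z^p)/(y+z)`. -/
def sgPhi {R : Type*} [CommRing R] (p : ℕ) (y z : R) : R :=
  ∑ i ∈ range p, y ^ i * (-z) ^ (p - 1 - i)

theorem sgPhi_mul {R : Type*} [CommRing R] {p : ℕ} (hp : Odd p) (y z : R) :
    sgPhi p y z * (y + z) = y ^ p + z ^ p := by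
  have := geom_sum₂_mul y (-z) p
  rw [hp.neg_pow, sub_neg_eq_add, sub_neg_eq_add] at this
  exact this

theorem sgPhi_map {R S : Type*} [CommRing R] [CommRing S] (f : R →+* S) (p : ℕ) (y z : R) :
    f (sgPhi p y z) = sgPhi p (f y) (f z) := by
  simp [sgPhi, map_sum]

/-- `φ(y,z) ≡ p y^(p-1)` modulo `y + z`. -/
theorem add_dvd_sgPhi_sub (p : ℕ) (y z : ℤ) :
    (y + z) ∣ sgPhi p y z - p * y ^ (p - 1) := by
  have h1 : (p : ℤ) * y ^ (p - 1) = ∑ i ∈ range p, y ^ i * y ^ (p - 1 - i) := by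
    have : ∀ i ∈ range p, y ^ i * y ^ (p - 1 - i) = y ^ (p - 1) := by
      intro i hi
      rw [← pow_add]
      congr 1
      have := mem_range.mp hi
      omega
    rw [sum_congr rfl this, sum_const, card_range, nsmul_eq_mul]
  rw [h1, sgPhi, ← sum_sub_distrib]
  refine dvd_sum fun i _ => ?_
  rw [← mul_sub]
  refine Dvd.dvd.mul_left ?_ _
  have := sub_dvd_pow_sub_pow (-z) y (p - 1 - i)
  have h2 : (y + z) ∣ (-z - y) := ⟨-1, by ring⟩
  exact h2.trans this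

theorem sgPhi_of_add_eq_zero {R : Type*} [CommRing R] (p : ℕ) {y z : R} (h : y + z = 0) :
    sgPhi p y z = p * y ^ (p - 1) := by
  have hz : -z = y := by linear_combination -h
  rw [sgPhi, hz]
  have : ∀ i ∈ range p, y ^ i * y ^ (p - 1 - i) = y ^ (p - 1) := by
    intro i hi
    rw [← pow_add]
    congr 1
    have := mem_range.mp hi
    omega
  rw [sum_congr rfl this, sum_const, card_range, nsmul_eq_mul]

theorem sgPhi_zero_left {R : Type*} [CommRing R] {p : ℕ} (hp : Odd p) (y : R) :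
    sgPhi p 0 y = y ^ (p - 1) := by
  obtain ⟨k, hk⟩ := hp
  rw [sgPhi, hk, sum_range_succ']
  have : ∀ i ∈ range (2 * k), (0 : R) ^ (i + 1) * (-y) ^ (2 * k + 1 - 1 - (i + 1)) = 0 := by
    intro i _
    rw [pow_succ, mul_zero, zero_mul]
  rw [sum_congr rfl this, sum_const_zero, zero_add, pow_zero, one_mul]
  simp only [Nat.add_sub_cancel, Nat.sub_zero]
  rw [Even.neg_pow (even_two_mul k)]

theorem isCoprime_add_sgPhi {p : ℕ} (hp : p.Prime) {y z : ℤ} (hyz : IsCoprime y z)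
    (hpyz : ¬ (p : ℤ) ∣ y + z) : IsCoprime (y + z) (sgPhi p y z) := by
  obtain ⟨t, ht⟩ := add_dvd_sgPhi_sub p y z
  have h1 : sgPhi p y z = p * y ^ (p - 1) + (y + z) * t := by linear_combination ht
  rw [h1]
  apply IsCoprime.add_mul_left_right
  apply IsCoprime.mul_right
  · have hprime : Prime (p : ℤ) := Nat.prime_iff_prime_int.mp hp
    exact ((hprime.irreducible.coprime_iff_not_dvd).mpr hpyz).symm
  · apply IsCoprime.pow_right
    have : IsCoprime (z + y * 1) y := IsCoprime.add_mul_left_left hyz.symm 1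
    simpa [add_comm] using this

/-- Core of Sophie Germain's theorem, assuming `θ ∣ x`. -/
theorem sophieGermain_core {p θ : ℕ} (hp : p.Prime) (hp2 : Odd p) [Fact θ.Prime]
    (h1 : ∀ x y z : ZMod θ, x ^ p + y ^ p + z ^ p = 0 → x = 0 ∨ y = 0 ∨ z = 0)
    (h2 : ∀ x : ZMod θ, x ^ p ≠ (p : ZMod θ))
    {x y z : ℤ} (hxy : IsCoprime x y) (hyz : IsCoprime y z) (hzx : IsCoprime z x)
    (h : x ^ p + y ^ p + z ^ p = 0)
    (hpx : ¬ (p : ℤ) ∣ x) (hpy : ¬ (p : ℤ) ∣ y) (hpz : ¬ (p : ℤ) ∣ z)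
    (hθx : (θ : ℤ) ∣ x) : False := by
  have hprime : Prime (p : ℤ) := Nat.prime_iff_prime_int.mp hp
  have hθprime : Prime (θ : ℤ) := Nat.prime_iff_prime_int.mp Fact.out
  -- general extraction
  have extract : ∀ {u v w : ℤ}, IsCoprime u v → u ^ p + v ^ p + w ^ p = 0 → ¬ (p : ℤ) ∣ w →
      (∃ a, u + v = a ^ p) ∧ ∃ α, sgPhi p u v = α ^ p := by
    intro u v w huv huvw hpw
    have hmul : (u + v) * sgPhi p u v = (-w) ^ p := by
      rw [hp2.neg_pow, mul_comm, sgPhi_mul hp2]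
      linear_combination huvw
    have hnd : ¬ (p : ℤ) ∣ u + v := by
      intro hd
      have : (p : ℤ) ∣ (-w) ^ p := hmul ▸ Dvd.dvd.mul_right hd _
      exact hpw ((dvd_neg.mp (hprime.dvd_of_dvd_pow this)))
    exact Int.eq_pow_of_mul_eq_pow_odd (isCoprime_add_sgPhi hp huv hnd) hp2 hmul
  obtain ⟨⟨a, ha⟩, ⟨α, hα⟩⟩ := extract hyz (by linear_combination h) hpx
  obtain ⟨⟨b, hb⟩, -⟩ := extract hzx (by linear_combination h) hpy
  obtain ⟨⟨c, hc⟩, ⟨γ, hγ⟩⟩ := extract hxy (by linear_combination h) hpz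
  -- reduce modulo θ
  have hx0 : (x : ZMod θ) = 0 := (ZMod.intCast_zmod_eq_zero_iff_dvd x θ).mpr hθx
  have hy0 : (y : ZMod θ) ≠ 0 := by
    intro hy0
    have hθy : (θ : ℤ) ∣ y := (ZMod.intCast_zmod_eq_zero_iff_dvd y θ).mp hy0
    exact hθprime.not_isUnit (hxy.isUnit_of_dvd' hθx hθy)
  have hz0 : (z : ZMod θ) ≠ 0 := by
    intro hz0
    have hθz : (θ : ℤ) ∣ z := (ZMod.intCast_zmod_eq_zero_iff_dvd z θ).mp hz0
    exact hθprime.not_isUnit (hzx.isUnit_of_dvd' hθz hθx)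
  have ha' : (y : ZMod θ) + z = (a : ZMod θ) ^ p := by exact_mod_cast congrArg (Int.cast : ℤ → ZMod θ) ha
  have hb' : (z : ZMod θ) + x = (b : ZMod θ) ^ p := by exact_mod_cast congrArg (Int.cast : ℤ → ZMod θ) hb
  have hc' : (x : ZMod θ) + y = (c : ZMod θ) ^ p := by exact_mod_cast congrArg (Int.cast : ℤ → ZMod θ) hc
  have hsum : (b : ZMod θ) ^ p + (c : ZMod θ) ^ p + (-(a : ZMod θ)) ^ p = 0 := by
    rw [hp2.neg_pow, ← ha', ← hb', ← hc', hx0]
    ring
  rcases h1 _ _ _ hsum with hb0 | hc0 | ha0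
  · rw [hb0, zero_pow hp.ne_zero, hx0, add_zero] at hb'
    exact hz0 hb'
  · rw [hc0, zero_pow hp.ne_zero, hx0, zero_add] at hc'
    exact hy0 hc'
  · have ha0' : (a : ZMod θ) = 0 := neg_eq_zero.mp ha0
    rw [ha0', zero_pow hp.ne_zero] at ha'
    have hα' : (p : ZMod θ) * (y : ZMod θ) ^ (p - 1) = (α : ZMod θ) ^ p := by
      rw [← sgPhi_of_add_eq_zero p ha']
      have := congrArg (Int.castRingHom (ZMod θ)) hα
      rw [sgPhi_map, map_pow] at this
      simpa using this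
    have hγ' : (y : ZMod θ) ^ (p - 1) = (γ : ZMod θ) ^ p := by
      rw [← sgPhi_zero_left hp2, ← hx0]
      have := congrArg (Int.castRingHom (ZMod θ)) hγ
      rw [sgPhi_map, map_pow] at this
      simpa using this
    have hγ0 : (γ : ZMod θ) ≠ 0 := by
      intro h0
      rw [h0, zero_pow hp.ne_zero] at hγ'
      exact hy0 (pow_eq_zero_iff (by have := hp.two_le; omega) |>.mp hγ')
    apply h2 ((α : ZMod θ) / γ)
    rw [div_pow, ← hα', ← hγ']
    field_simp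

/-- **Sophie Germain's theorem.** -/
theorem sophieGermain {p θ : ℕ} (hp : p.Prime) (hp2 : Odd p) [Fact θ.Prime]
    (h1 : ∀ x y z : ZMod θ, x ^ p + y ^ p + z ^ p = 0 → x = 0 ∨ y = 0 ∨ z = 0)
    (h2 : ∀ x : ZMod θ, x ^ p ≠ (p : ZMod θ))
    {x y z : ℤ} (hxy : IsCoprime x y) (hyz : IsCoprime y z) (hzx : IsCoprime z x)
    (h : x ^ p + y ^ p + z ^ p = 0) : (p : ℤ) ∣ x * y * z := by
  by_contra hcon
  have hpx : ¬ (p : ℤ) ∣ x := fun hd => hcon (Dvd.dvd.mul_right (Dvd.dvd.mul_right hd y) z)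
  have hpy : ¬ (p : ℤ) ∣ y := fun hd => hcon (Dvd.dvd.mul_right (Dvd.dvd.mul_left hd x) z)
  have hpz : ¬ (p : ℤ) ∣ z := fun hd => hcon (Dvd.dvd.mul_left hd (x * y))
  have hmod : (x : ZMod θ) ^ p + (y : ZMod θ) ^ p + (z : ZMod θ) ^ p = 0 := by
    exact_mod_cast congrArg (Int.cast : ℤ → ZMod θ) h
  rcases h1 _ _ _ hmod with h0 | h0 | h0
  · exact sophieGermain_core hp hp2 h1 h2 hxy hyz hzx h hpx hpy hpz
      ((ZMod.intCast_zmod_eq_zero_iff_dvd x θ).mp h0)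
  · exact sophieGermain_core hp hp2 h1 h2 hyz hzx hxy (by linear_combination h) hpy hpz hpx
      ((ZMod.intCast_zmod_eq_zero_iff_dvd y θ).mp h0)
  · exact sophieGermain_core hp hp2 h1 h2 hzx hxy hyz (by linear_combination h) hpz hpx hpy
      ((ZMod.intCast_zmod_eq_zero_iff_dvd z θ).mp h0)

/-- Reformulation for `a^p + b^p = c^p`. -/
theorem caseI_of_sophieGermain {p θ : ℕ} (hp : p.Prime) (hp2 : Odd p) [Fact θ.Prime]
    (h1 : ∀ x y z : ZMod θ, x ^ p + y ^ p + z ^ p = 0 → x = 0 ∨ y = 0 ∨ z = 0)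
    (h2 : ∀ x : ZMod θ, x ^ p ≠ (p : ZMod θ))
    {a b c : ℤ} (hab : IsCoprime a b) (h : a ^ p + b ^ p = c ^ p) : (p : ℤ) ∣ a * b * c := by
  have hbc : IsCoprime b c := by
    rw [← IsCoprime.pow_right_iff hp.pos, ← h]
    have : IsCoprime b (a ^ p + b * b ^ (p - 1)) :=
      IsCoprime.add_mul_left_right (hab.symm.pow_right) _
    rwa [mul_pow_sub_one hp.ne_zero] at this
  have hca : IsCoprime c a := by
    rw [← IsCoprime.pow_left_iff hp.pos, ← h, add_comm]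
    have : IsCoprime (b ^ p + a * a ^ (p - 1)) a :=
      IsCoprime.add_mul_left_left (hab.symm.pow_left) _
    rwa [mul_pow_sub_one hp.ne_zero] at this
  have := sophieGermain hp hp2 h1 h2 (x := a) (y := b) (z := -c) hab hbc.neg_right hca.neg_left
    (by rw [hp2.neg_pow]; linear_combination h)
  simpa using this

/-- Checking the two Sophie Germain conditions through the (small) set of `p`-th powers. -/
theorem sg_conditions {p θ : ℕ} (hp : p ≠ 0) [Fact θ.Prime] (S : Finset (ZMod θ))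
    (hS : ∀ x : ZMod θ, x ^ p ∈ S)
    (hsum : ∀ u ∈ S, ∀ v ∈ S, ∀ w ∈ S, u + v + w = 0 → u = 0 ∨ v = 0 ∨ w = 0)
    (hpS : (p : ZMod θ) ∉ S) :
    (∀ x y z : ZMod θ, x ^ p + y ^ p + z ^ p = 0 → x = 0 ∨ y = 0 ∨ z = 0) ∧
      ∀ x : ZMod θ, x ^ p ≠ (p : ZMod θ) := by
  refine ⟨fun x y z h => ?_, fun x hx => hpS (hx ▸ hS x)⟩
  rcases hsum _ (hS x) _ (hS y) _ (hS z) h with h0 | h0 | h0
  · exact Or.inl ((pow_eq_zero_iff hp).mp h0)
  · exact Or.inr (Or.inl ((pow_eq_zero_iff hp).mp h0))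
  · exact Or.inr (Or.inr ((pow_eq_zero_iff hp).mp h0))

theorem sgFact11 : Fact (Nat.Prime 11) := ⟨by norm_num⟩
theorem sgFact23 : Fact (Nat.Prime 23) := ⟨by norm_num⟩
theorem sgFact29 : Fact (Nat.Prime 29) := ⟨by norm_num⟩
theorem sgFact53 : Fact (Nat.Prime 53) := ⟨by norm_num⟩

set_option maxRecDepth 100000 in
theorem sg_five : (∀ x y z : ZMod 11, x ^ 5 + y ^ 5 + z ^ 5 = 0 → x = 0 ∨ y = 0 ∨ z = 0) ∧
    ∀ x : ZMod 11, x ^ 5 ≠ ((5 : ℕ) : ZMod 11) :=
  @sg_conditions 5 11 (by norm_num) sgFact11 {0, 1, -1} (by decide) (by decide) (by decide)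

set_option maxRecDepth 100000 in
theorem sg_seven : (∀ x y z : ZMod 29, x ^ 7 + y ^ 7 + z ^ 7 = 0 → x = 0 ∨ y = 0 ∨ z = 0) ∧
    ∀ x : ZMod 29, x ^ 7 ≠ ((7 : ℕ) : ZMod 29) :=
  @sg_conditions 7 29 (by norm_num) sgFact29 {0, 1, -1, 12, -12} (by decide) (by decide) (by decide)

set_option maxRecDepth 100000 in
theorem sg_eleven : (∀ x y z : ZMod 23, x ^ 11 + y ^ 11 + z ^ 11 = 0 → x = 0 ∨ y = 0 ∨ z = 0) ∧
    ∀ x : ZMod 23, x ^ 11 ≠ ((11 : ℕ) : ZMod 23) :=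
  @sg_conditions 11 23 (by norm_num) sgFact23 {0, 1, -1} (by decide) (by decide) (by decide)

set_option maxRecDepth 100000 in
theorem sg_thirteen : (∀ x y z : ZMod 53, x ^ 13 + y ^ 13 + z ^ 13 = 0 → x = 0 ∨ y = 0 ∨ z = 0) ∧
    ∀ x : ZMod 53, x ^ 13 ≠ ((13 : ℕ) : ZMod 53) :=
  @sg_conditions 13 53 (by norm_num) sgFact53 {0, 1, -1, 23, -23} (by decide) (by decide) (by decide)

/-- Case I of Fermat's Last Theorem for the exponents `5, 7, 11, 13`. -/
theorem caseI_small {p : ℕ} (hp : p = 5 ∨ p = 7 ∨ p = 11 ∨ p = 13) {a b c : ℤ}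
    (hab : IsCoprime a b) (h : a ^ p + b ^ p = c ^ p) : (p : ℤ) ∣ a * b * c := by
  rcases hp with rfl | rfl | rfl | rfl
  · have := sgFact11
    exact caseI_of_sophieGermain (θ := 11) (by norm_num) (by decide) sg_five.1 sg_five.2 hab h
  · have := sgFact29
    exact caseI_of_sophieGermain (θ := 29) (by norm_num) (by decide) sg_seven.1 sg_seven.2 hab h
  · have := sgFact23
    exact caseI_of_sophieGermain (θ := 23) (by norm_num) (by decide) sg_eleven.1 sg_eleven.2 hab h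
  · have := sgFact53
    exact caseI_of_sophieGermain (θ := 53) (by norm_num) (by decide) sg_thirteen.1 sg_thirteen.2
      hab h

end Fermat.Agent.Lib.Kummer
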