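import Mathlib

set_option autoImplicit false

namespace Fermat.Agent.Lib.Kummer

open NumberField

/-- Kummer's lemma, as a property of the prime `p` and the `p`-th cyclotomic field `K`. -/
def KummerLemma (p : ℕ) (K : Type) [Field K] [NumberField K] : Prop :=
  ∀ u : (𝓞 K)ˣ, (∃ n : ℤ, (p : 𝓞 K) ∣ (u : 𝓞 K) - n) → ∃ v : (𝓞 K)ˣ, u = v ^ p

/-- Independence modulo `p` of the cyclotomic units `ζ`, `1 + ζ + ⋯ + ζ ^ (a - 1)`,
`2 ≤ a ≤ (p - 1) / 2`. -/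
def CycloUnitsIndep {p : ℕ} [NeZero p] {K : Type} [Field K] [NumberField K] {ζ : K}
    (hζ : IsPrimitiveRoot ζ p) : Prop :=
  ∀ (x : ℕ → ℕ) (n : ℤ),
    (p : 𝓞 K) ∣ hζ.toInteger ^ x 1 *
      ∏ a ∈ Finset.Icc 2 ((p - 1) / 2), (∑ i ∈ Finset.range a, hζ.toInteger ^ i) ^ x a - n →
    ∀ a ∈ Finset.Icc 1 ((p - 1) / 2), p ∣ x a

end Fermat.Agent.Lib.Kummer
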