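import Mathlib

set_option autoImplicit false

namespace Fermat.Agent.Lib.Kummer

open Polynomial Finset

/-- The polynomial `X * F' / F * ∏ Q_a` attached to `F = X ^ c 1 * ∏ Q_a ^ c a`,
`Q_a = 1 + X + ... + X ^ (a - 1)`, `2 ≤ a ≤ (p - 1) / 2`. -/
noncomputable def indepPoly (p : ℕ) (c : ℕ → ZMod p) : (ZMod p)[X] :=
  C (c 1) * ∏ a ∈ Icc 2 ((p - 1) / 2), (∑ i ∈ range a, (X : (ZMod p)[X]) ^ i) +
    X * ∑ a ∈ Icc 2 ((p - 1) / 2), C (c a) * derivative (∑ i ∈ range a, (X : (ZMod p)[X]) ^ i) *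
      ∏ b ∈ (Icc 2 ((p - 1) / 2)).erase a, (∑ i ∈ range b, (X : (ZMod p)[X]) ^ i)

/-- Polynomial with a given list of coefficients. -/
noncomputable def polyOfList {R : Type} [CommRing R] : List R → R[X]
  | [] => 0
  | a :: l => C a + X * polyOfList l

theorem coeff_polyOfList {R : Type} [CommRing R] (l : List R) (j : ℕ) :
    (polyOfList l).coeff j = l.getD j 0 := by
  induction l generalizing j with
  | nil => simp [polyOfList]
  | cons a l ih =>
    cases j with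
    | zero => simp [polyOfList]
    | succ j => simp [polyOfList, coeff_X_mul, ih, coeff_C_succ]

theorem coeff_comp_eq_zero_of_dvd {R : Type} [CommRing R] {G : R[X]} {k : ℕ}
    (h : (X - 1 : R[X]) ^ k ∣ G) {j : ℕ} (hj : j < k) : (G.comp (X + 1)).coeff j = 0 := by
  obtain ⟨H, rfl⟩ := h
  have : ((X - 1 : R[X]) ^ k * H).comp (X + 1) = X ^ k * H.comp (X + 1) := by
    simp
  rw [this]
  exact (X_pow_dvd_iff.mp (Dvd.intro _ rfl)) j hj


theorem indepS2_five (c : ℕ → ZMod 5)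
    (h : (X - 1 : (ZMod 5)[X]) ^ (5 - 2) ∣ indepPoly 5 c) :
    ∀ a ∈ Icc 1 ((5 - 1) / 2), c a = 0 := by
  have key : (indepPoly 5 c).comp (X + 1) = polyOfList
      [2 * c 1 + 1 * c 2,
       1 * c 1 + 1 * c 2] := by
    have e0 : Icc 2 ((5 - 1) / 2) = {2} := by decide
    have e2 : ({2} : Finset ℕ).erase 2 = ∅ := by decide
    simp only [indepPoly, e0]
    simp [e2, polyOfList, Finset.sum_range_succ, map_ofNat]
    ring
  have hp : (5 : ZMod 5) = 0 := by decide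
  have h0 : 2 * c 1 + 1 * c 2 = 0 := by
    have := coeff_comp_eq_zero_of_dvd h (j := 0) (by norm_num)
    rw [key, coeff_polyOfList] at this
    exact this
  have h1 : 1 * c 1 + 1 * c 2 = 0 := by
    have := coeff_comp_eq_zero_of_dvd h (j := 1) (by norm_num)
    rw [key, coeff_polyOfList] at this
    exact this
  have c1 : c 1 = 0 := by
    linear_combination 1 * h0 + 4 * h1 - (1 * c 1 + 1 * c 2) * hp
  have c2 : c 2 = 0 := by
    linear_combination 4 * h0 + 2 * h1 - (2 * c 1 + 1 * c 2) * hp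
  intro a ha
  have ha' := Finset.mem_Icc.mp ha
  have ha2 : a ≤ 2 := ha'.2
  have ha1 := ha'.1
  interval_cases a
  · exact c1
  · exact c2

theorem indepS2_seven (c : ℕ → ZMod 7)
    (h : (X - 1 : (ZMod 7)[X]) ^ (7 - 2) ∣ indepPoly 7 c) :
    ∀ a ∈ Icc 1 ((7 - 1) / 2), c a = 0 := by
  have key : (indepPoly 7 c).comp (X + 1) = polyOfList
      [6 * c 1 + 3 * c 2 + 6 * c 3,
       9 * c 1 + 6 * c 2 + 13 * c 3,
       5 * c 1 + 4 * c 2 + 9 * c 3,
       1 * c 1 + 1 * c 2 + 2 * c 3] := by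
    have e0 : Icc 2 ((7 - 1) / 2) = {2, 3} := by decide
    have e2 : ({2, 3} : Finset ℕ).erase 2 = {3} := by decide
    have e3 : ({2, 3} : Finset ℕ).erase 3 = {2} := by decide
    simp only [indepPoly, e0]
    simp [e2, e3, polyOfList, Finset.sum_range_succ, map_ofNat]
    ring
  have hp : (7 : ZMod 7) = 0 := by decide
  have h0 : 6 * c 1 + 3 * c 2 + 6 * c 3 = 0 := by
    have := coeff_comp_eq_zero_of_dvd h (j := 0) (by norm_num)
    rw [key, coeff_polyOfList] at this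
    exact this
  have h1 : 9 * c 1 + 6 * c 2 + 13 * c 3 = 0 := by
    have := coeff_comp_eq_zero_of_dvd h (j := 1) (by norm_num)
    rw [key, coeff_polyOfList] at this
    exact this
  have h3 : 1 * c 1 + 1 * c 2 + 2 * c 3 = 0 := by
    have := coeff_comp_eq_zero_of_dvd h (j := 3) (by norm_num)
    rw [key, coeff_polyOfList] at this
    exact this
  have c1 : c 1 = 0 := by
    linear_combination 5 * h0 + 6 * h3 - (5 * c 1 + 3 * c 2 + 6 * c 3) * hp
  have c2 : c 2 = 0 := by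
    linear_combination 4 * h0 + 5 * h1 + 1 * h3 - (10 * c 1 + 6 * c 2 + 13 * c 3) * hp
  have c3 : c 3 = 0 := by
    linear_combination 6 * h0 + 1 * h1 + 4 * h3 - (7 * c 1 + 4 * c 2 + 8 * c 3) * hp
  intro a ha
  have ha' := Finset.mem_Icc.mp ha
  have ha2 : a ≤ 3 := ha'.2
  have ha1 := ha'.1
  interval_cases a
  · exact c1
  · exact c2
  · exact c3

theorem indepS2_eleven (c : ℕ → ZMod 11)
    (h : (X - 1 : (ZMod 11)[X]) ^ (11 - 2) ∣ indepPoly 11 c) :
    ∀ a ∈ Icc 1 ((11 - 1) / 2), c a = 0 := by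
  have key : (indepPoly 11 c).comp (X + 1) = polyOfList
      [120 * c 1 + 60 * c 2 + 120 * c 3 + 180 * c 4 + 240 * c 5,
       600 * c 1 + 330 * c 2 + 680 * c 3 + 1050 * c 4 + 1440 * c 5,
       1450 * c 1 + 860 * c 2 + 1810 * c 3 + 2850 * c 4 + 3980 * c 5,
       2200 * c 1 + 1395 * c 2 + 2980 * c 3 + 4745 * c 4 + 6676 * c 5,
       2299 * c 1 + 1552 * c 2 + 3349 * c 3 + 5356 * c 4 + 7524 * c 5,
       1717 * c 1 + 1232 * c 2 + 2673 * c 3 + 4268 * c 4 + 5950 * c 5,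
       923 * c 1 + 704 * c 2 + 1528 * c 3 + 2422 * c 4 + 3341 * c 5,
       351 * c 1 + 285 * c 2 + 615 * c 3 + 963 * c 4 + 1314 * c 5,
       90 * c 1 + 78 * c 2 + 166 * c 3 + 256 * c 4 + 346 * c 5,
       14 * c 1 + 13 * c 2 + 27 * c 3 + 41 * c 4 + 55 * c 5,
       1 * c 1 + 1 * c 2 + 2 * c 3 + 3 * c 4 + 4 * c 5] := by
    have e0 : Icc 2 ((11 - 1) / 2) = {2, 3, 4, 5} := by decide
    have e2 : ({2, 3, 4, 5} : Finset ℕ).erase 2 = {3, 4, 5} := by decide
    have e3 : ({2, 3, 4, 5} : Finset ℕ).erase 3 = {2, 4, 5} := by decide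
    have e4 : ({2, 3, 4, 5} : Finset ℕ).erase 4 = {2, 3, 5} := by decide
    have e5 : ({2, 3, 4, 5} : Finset ℕ).erase 5 = {2, 3, 4} := by decide
    simp only [indepPoly, e0]
    simp [e2, e3, e4, e5, polyOfList, Finset.sum_range_succ, map_ofNat]
    ring
  have hp : (11 : ZMod 11) = 0 := by decide
  have h0 : 120 * c 1 + 60 * c 2 + 120 * c 3 + 180 * c 4 + 240 * c 5 = 0 := by
    have := coeff_comp_eq_zero_of_dvd h (j := 0) (by norm_num)
    rw [key, coeff_polyOfList] at this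
    exact this
  have h1 : 600 * c 1 + 330 * c 2 + 680 * c 3 + 1050 * c 4 + 1440 * c 5 = 0 := by
    have := coeff_comp_eq_zero_of_dvd h (j := 1) (by norm_num)
    rw [key, coeff_polyOfList] at this
    exact this
  have h3 : 2200 * c 1 + 1395 * c 2 + 2980 * c 3 + 4745 * c 4 + 6676 * c 5 = 0 := by
    have := coeff_comp_eq_zero_of_dvd h (j := 3) (by norm_num)
    rw [key, coeff_polyOfList] at this
    exact this
  have h5 : 1717 * c 1 + 1232 * c 2 + 2673 * c 3 + 4268 * c 4 + 5950 * c 5 = 0 := by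
    have := coeff_comp_eq_zero_of_dvd h (j := 5) (by norm_num)
    rw [key, coeff_polyOfList] at this
    exact this
  have h7 : 351 * c 1 + 285 * c 2 + 615 * c 3 + 963 * c 4 + 1314 * c 5 = 0 := by
    have := coeff_comp_eq_zero_of_dvd h (j := 7) (by norm_num)
    rw [key, coeff_polyOfList] at this
    exact this
  have c1 : c 1 = 0 := by
    linear_combination 5 * h1 + 10 * h3 + 6 * h5 + 2 * h7 - (3273 * c 1 + 2142 * c 2 + 4588 * c 3 + 7294 * c 4 + 10208 * c 5) * hp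
  have c2 : c 2 = 0 := by
    linear_combination 8 * h0 + 3 * h1 + 9 * h3 + 10 * h7 - (2370 * c 1 + 1534 * c 2 + 3270 * c 3 + 5175 * c 4 + 7224 * c 5) * hp
  have c3 : c 3 = 0 := by
    linear_combination 1 * h0 + 10 * h1 + 5 * h3 + 2 * h5 + 6 * h7 - (2060 * c 1 + 1319 * c 2 + 2805 * c 3 + 4429 * c 4 + 6164 * c 5) * hp
  have c4 : c 4 = 0 := by
    linear_combination 7 * h0 + 8 * h1 + 3 * h3 + 10 * h5 + 7 * h7 - (2897 * c 1 + 1960 * c 2 + 4205 * c 3 + 6665 * c 4 + 9266 * c 5) * hp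
  have c5 : c 5 = 0 := by
    linear_combination 5 * h1 + 10 * h3 + 5 * h5 + 2 * h7 - (3117 * c 1 + 2030 * c 2 + 4345 * c 3 + 6906 * c 4 + 9667 * c 5) * hp
  intro a ha
  have ha' := Finset.mem_Icc.mp ha
  have ha2 : a ≤ 5 := ha'.2
  have ha1 := ha'.1
  interval_cases a
  · exact c1
  · exact c2
  · exact c3
  · exact c4
  · exact c5

theorem indepS2_thirteen (c : ℕ → ZMod 13)
    (h : (X - 1 : (ZMod 13)[X]) ^ (13 - 2) ∣ indepPoly 13 c) :
    ∀ a ∈ Icc 1 ((13 - 1) / 2), c a = 0 := by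
  have key : (indepPoly 13 c).comp (X + 1) = polyOfList
      [720 * c 1 + 360 * c 2 + 720 * c 3 + 1080 * c 4 + 1440 * c 5 + 1800 * c 6,
       5400 * c 1 + 2880 * c 2 + 5880 * c 3 + 9000 * c 4 + 12240 * c 5 + 15600 * c 6,
       20100 * c 1 + 11310 * c 2 + 23460 * c 3 + 36450 * c 4 + 50280 * c 5 + 64950 * c 6,
       48750 * c 1 + 28770 * c 2 + 60430 * c 3 + 94920 * c 4 + 132156 * c 5 + 172030 * c 6,
       85514 * c 1 + 52747 * c 2 + 111914 * c 3 + 177141 * c 4 + 247924 * c 5 + 323615 * c 6,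
       114257 * c 1 + 73512 * c 2 + 157223 * c 3 + 250078 * c 4 + 350660 * c 5 + 457250 * c 6,
       119573 * c 1 + 80159 * c 2 + 172483 * c 3 + 274997 * c 4 + 385236 * c 5 + 500545 * c 6,
       99426 * c 1 + 69420 * c 2 + 149995 * c 3 + 239128 * c 4 + 333895 * c 5 + 431656 * c 6,
       66014 * c 1 + 48010 * c 2 + 103950 * c 3 + 165322 * c 4 + 229676 * c 5 + 295254 * c 6,
       34900 * c 1 + 26452 * c 2 + 57259 * c 3 + 90640 * c 4 + 125139 * c 5 + 159970 * c 6,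
       14536 * c 1 + 11492 * c 2 + 24803 * c 3 + 38998 * c 4 + 53475 * c 5 + 68006 * c 6,
       4674 * c 1 + 3859 * c 2 + 8278 * c 3 + 12905 * c 4 + 17575 * c 5 + 22249 * c 6,
       1121 * c 1 + 968 * c 2 + 2056 * c 3 + 3174 * c 4 + 4295 * c 5 + 5416 * c 6,
       189 * c 1 + 171 * c 2 + 358 * c 3 + 547 * c 4 + 736 * c 5 + 925 * c 6,
       20 * c 1 + 19 * c 2 + 39 * c 3 + 59 * c 4 + 79 * c 5 + 99 * c 6,
       1 * c 1 + 1 * c 2 + 2 * c 3 + 3 * c 4 + 4 * c 5 + 5 * c 6] := by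
    have e0 : Icc 2 ((13 - 1) / 2) = {2, 3, 4, 5, 6} := by decide
    have e2 : ({2, 3, 4, 5, 6} : Finset ℕ).erase 2 = {3, 4, 5, 6} := by decide
    have e3 : ({2, 3, 4, 5, 6} : Finset ℕ).erase 3 = {2, 4, 5, 6} := by decide
    have e4 : ({2, 3, 4, 5, 6} : Finset ℕ).erase 4 = {2, 3, 5, 6} := by decide
    have e5 : ({2, 3, 4, 5, 6} : Finset ℕ).erase 5 = {2, 3, 4, 6} := by decide
    have e6 : ({2, 3, 4, 5, 6} : Finset ℕ).erase 6 = {2, 3, 4, 5} := by decide
    simp only [indepPoly, e0]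
    simp [e2, e3, e4, e5, e6, polyOfList, Finset.sum_range_succ, map_ofNat]
    ring
  have hp : (13 : ZMod 13) = 0 := by decide
  have h0 : 720 * c 1 + 360 * c 2 + 720 * c 3 + 1080 * c 4 + 1440 * c 5 + 1800 * c 6 = 0 := by
    have := coeff_comp_eq_zero_of_dvd h (j := 0) (by norm_num)
    rw [key, coeff_polyOfList] at this
    exact this
  have h1 : 5400 * c 1 + 2880 * c 2 + 5880 * c 3 + 9000 * c 4 + 12240 * c 5 + 15600 * c 6 = 0 := by
    have := coeff_comp_eq_zero_of_dvd h (j := 1) (by norm_num)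
    rw [key, coeff_polyOfList] at this
    exact this
  have h3 : 48750 * c 1 + 28770 * c 2 + 60430 * c 3 + 94920 * c 4 + 132156 * c 5 + 172030 * c 6 = 0 := by
    have := coeff_comp_eq_zero_of_dvd h (j := 3) (by norm_num)
    rw [key, coeff_polyOfList] at this
    exact this
  have h5 : 114257 * c 1 + 73512 * c 2 + 157223 * c 3 + 250078 * c 4 + 350660 * c 5 + 457250 * c 6 = 0 := by
    have := coeff_comp_eq_zero_of_dvd h (j := 5) (by norm_num)
    rw [key, coeff_polyOfList] at this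
    exact this
  have h7 : 99426 * c 1 + 69420 * c 2 + 149995 * c 3 + 239128 * c 4 + 333895 * c 5 + 431656 * c 6 = 0 := by
    have := coeff_comp_eq_zero_of_dvd h (j := 7) (by norm_num)
    rw [key, coeff_polyOfList] at this
    exact this
  have h9 : 34900 * c 1 + 26452 * c 2 + 57259 * c 3 + 90640 * c 4 + 125139 * c 5 + 159970 * c 6 = 0 := by
    have := coeff_comp_eq_zero_of_dvd h (j := 9) (by norm_num)
    rw [key, coeff_polyOfList] at this
    exact this
  have c1 : c 1 = 0 := by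
    linear_combination 10 * h0 + 6 * h1 + 10 * h3 + 11 * h5 + 8 * h7 + 6 * h9 - (214518 * c 1 + 140868 * c 2 + 301519 * c 3 + 478594 * c 4 + 668358 * c 5 + 867286 * c 6) * hp
  have c2 : c 2 = 0 := by
    linear_combination 12 * h0 + 1 * h1 + 5 * h3 + 9 * h5 + 3 * h7 + 9 * h9 - (146037 * c 1 + 96845 * c 2 + 207461 * c 3 + 329262 * c 4 + 459552 * c 5 + 595946 * c 6) * hp
  have c3 : c 3 = 0 := by
    linear_combination 12 * h0 + 10 * h1 + 5 * h3 + 5 * h5 + 7 * h7 + 4 * h9 - (131789 * c 1 + 87406 * c 2 + 187285 * c 3 + 297262 * c 4 + 414737 * c 5 + 537344 * c 6) * hp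
  have c4 : c 4 = 0 := by
    linear_combination 10 * h0 + 5 * h1 + 6 * h3 + 12 * h5 + 7 * h7 + 10 * h9 - (210982 * c 1 + 140248 * c 2 + 300647 * c 3 + 477427 * c 4 + 666547 * c 5 + 864344 * c 6) * hp
  have c5 : c 5 = 0 := by
    linear_combination 11 * h0 + 3 * h1 + 2 * h3 + 5 * h5 + 1 * h9 - (55985 * c 1 + 35704 * c 2 + 76138 * c 3 + 120750 * c 4 + 168870 * c 5 + 219760 * c 6) * hp
  have c6 : c 6 = 0 := by
    linear_combination 11 * h0 + 1 * h1 + 6 * h3 + 4 * h5 + 10 * h7 + 3 * h9 - (143216 * c 1 + 95928 * c 2 + 205923 * c 3 + 327224 * c 4 + 456771 * c 5 + 591773 * c 6) * hp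
  intro a ha
  have ha' := Finset.mem_Icc.mp ha
  have ha2 : a ≤ 6 := ha'.2
  have ha1 := ha'.1
  interval_cases a
  · exact c1
  · exact c2
  · exact c3
  · exact c4
  · exact c5
  · exact c6

end Fermat.Agent.Lib.Kummer
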