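import Fermat.Agent.Lib.Kummer.Basic
import Fermat.Agent.Lib.Kummer.IndepS2

set_option autoImplicit false

namespace Fermat.Agent.Lib.Kummer

open NumberField Polynomial Finset

section generic

variable {R : Type} [CommRing R]

theorem mul_derivative_pow (Q : R[X]) (n : ℕ) :
    Q * derivative (Q ^ n) = C (n : R) * Q ^ n * derivative Q := by
  cases n with
  | zero => simp
  | succ m =>
    rw [derivative_pow, Nat.add_sub_cancel, pow_succ]
    ring

theorem prod_mul_derivative_prod_pow (s : Finset ℕ) (Q : ℕ → R[X]) (x : ℕ → ℕ) :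
    (∏ a ∈ s, Q a) * derivative (∏ a ∈ s, Q a ^ x a) =
      (∏ a ∈ s, Q a ^ x a) * ∑ a ∈ s, C (x a : R) * derivative (Q a) * ∏ b ∈ s.erase a, Q b := by
  rw [derivative_prod_finset, Finset.mul_sum, Finset.mul_sum]
  refine Finset.sum_congr rfl fun a ha => ?_
  rw [← Finset.mul_prod_erase s Q ha, ← Finset.mul_prod_erase s (fun a => Q a ^ x a) ha]
  have := mul_derivative_pow (Q a) (x a)
  linear_combination ((∏ b ∈ s.erase a, Q b) * ∏ b ∈ s.erase a, Q b ^ x b) * this

theorem logDeriv_identity (s : Finset ℕ) (Q : ℕ → R[X]) (x : ℕ → ℕ) (x1 : ℕ) :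
    X * (∏ a ∈ s, Q a) * derivative (X ^ x1 * ∏ a ∈ s, Q a ^ x a) =
      (X ^ x1 * ∏ a ∈ s, Q a ^ x a) *
        (C (x1 : R) * ∏ a ∈ s, Q a +
          X * ∑ a ∈ s, C (x a : R) * derivative (Q a) * ∏ b ∈ s.erase a, Q b) := by
  rw [derivative_mul]
  have h1 := mul_derivative_pow (X : R[X]) x1
  have h2 := prod_mul_derivative_prod_pow s Q x
  rw [derivative_X, mul_one] at h1
  linear_combination ((∏ a ∈ s, Q a) * ∏ a ∈ s, Q a ^ x a) * h1 + (X * X ^ x1) * h2

end generic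

variable {p : ℕ} [hp : Fact p.Prime] {K : Type} [Field K] [NumberField K]
  [hK : IsCyclotomicExtension {p} ℚ K] {ζ : K} (hζ : IsPrimitiveRoot ζ p)

include hK in
theorem X_sub_one_pow_dvd_map_of_dvd_aeval (F : ℤ[X])
    (h : (p : 𝓞 K) ∣ aeval hζ.toInteger F) :
    (X - 1 : (ZMod p)[X]) ^ (p - 1) ∣ F.map (Int.castRingHom (ZMod p)) := by
  have hmonic : (cyclotomic p ℤ).Monic := cyclotomic.monic p ℤ
  have hF : F %ₘ cyclotomic p ℤ + cyclotomic p ℤ * (F /ₘ cyclotomic p ℤ) = F :=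
    modByMonic_add_div F (cyclotomic p ℤ)
  set r := F %ₘ cyclotomic p ℤ with hr
  set q := F /ₘ cyclotomic p ℤ with hq
  have hnd : (cyclotomic p ℤ).natDegree = p - 1 := by
    rw [natDegree_cyclotomic, Nat.totient_prime hp.out]
  have hp2 : 2 ≤ p := hp.out.two_le
  have hdeg : r.natDegree < p - 1 := by
    have := natDegree_modByMonic_lt F hmonic (fun h1 => by
      have := congrArg natDegree h1
      rw [hnd, natDegree_one] at this
      omega)
    rwa [hnd] at this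
  have hΦ : aeval hζ.toInteger (cyclotomic p ℤ) = 0 := by
    have h1 := hζ.toInteger_isPrimitiveRoot.isRoot_cyclotomic hp.out.pos
    rw [IsRoot.def, ← map_cyclotomic_int p (𝓞 K), eval_map] at h1
    rw [aeval_def]
    exact h1
  have hr' : aeval hζ.toInteger F
      = ∑ i ∈ range (p - 1), (r.coeff i : 𝓞 K) * hζ.toInteger ^ i := by
    rw [← hF, map_add, map_mul, hΦ, zero_mul, add_zero, aeval_eq_sum_range' hdeg]
    simp [zsmul_eq_mul]
  rw [hr'] at h
  have hc := dvd_coeff_of_dvd_sum hζ (fun i => r.coeff i) h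
  have hr0 : r.map (Int.castRingHom (ZMod p)) = 0 := by
    ext i
    rw [coeff_map, coeff_zero]
    rcases Nat.lt_or_ge i (p - 1) with hi | hi
    · exact (ZMod.intCast_zmod_eq_zero_iff_dvd _ _).mpr (hc i hi)
    · rw [coeff_eq_zero_of_natDegree_lt (lt_of_lt_of_le hdeg hi)]; simp
  have hcyc : (cyclotomic p ℤ).map (Int.castRingHom (ZMod p)) = (X - 1) ^ (p - 1) := by
    rw [map_cyclotomic]
    have := cyclotomic_mul_prime_eq_pow_of_not_dvd (ZMod p) (p := p) (n := 1)
      (by intro h1; exact hp.out.one_lt.ne' (Nat.dvd_one.mp h1))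
    rwa [one_mul, cyclotomic_one] at this
  rw [← hF, Polynomial.map_add, Polynomial.map_mul, hr0, zero_add, hcyc]
  exact Dvd.intro _ rfl

include hK in
theorem cycloUnitsIndep_of_S2
    (H : ∀ c : ℕ → ZMod p, (X - 1 : (ZMod p)[X]) ^ (p - 2) ∣ indepPoly p c →
      ∀ a ∈ Icc 1 ((p - 1) / 2), c a = 0) : CycloUnitsIndep hζ := by
  intro x n hdvd a ha
  rw [← ZMod.natCast_eq_zero_iff]
  refine H (fun a => (x a : ZMod p)) ?_ a ha
  set s := Icc 2 ((p - 1) / 2) with hs
  -- the integral polynomial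
  let F : ℤ[X] := X ^ x 1 * ∏ a ∈ s, (∑ i ∈ range a, (X : ℤ[X]) ^ i) ^ x a - C n
  have hFa : aeval hζ.toInteger F = hζ.toInteger ^ x 1 *
      ∏ a ∈ s, (∑ i ∈ Finset.range a, hζ.toInteger ^ i) ^ x a - n := by
    simp [F, map_prod, map_sum]
  have h1 := X_sub_one_pow_dvd_map_of_dvd_aeval hζ F (by rw [hFa]; exact hdvd)
  set Q : ℕ → (ZMod p)[X] := fun a => ∑ i ∈ range a, (X : (ZMod p)[X]) ^ i with hQ
  set U : (ZMod p)[X] := X ^ x 1 * ∏ a ∈ s, Q a ^ x a with hU
  have hFm : F.map (Int.castRingHom (ZMod p)) = U - C (n : ZMod p) := by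
    simp [F, U, Q, Polynomial.map_prod, Polynomial.map_sum]
  rw [hFm] at h1
  obtain ⟨G, hG⟩ := h1
  have hp2 : 2 ≤ p := hp.out.two_le
  have hU' : (X - 1 : (ZMod p)[X]) ^ (p - 2) ∣ derivative U := by
    have h2 : derivative U = derivative ((X - 1 : (ZMod p)[X]) ^ (p - 1) * G) := by
      rw [← hG]; simp
    rw [h2, derivative_mul, derivative_pow]
    have e : p - 1 = (p - 2) + 1 := by omega
    refine dvd_add ?_ ?_
    · have : p - 1 - 1 = p - 2 := by omega
      rw [this]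
      exact Dvd.dvd.mul_right (Dvd.dvd.mul_right (Dvd.intro_left _ rfl) _) _
    · rw [e, pow_succ, mul_assoc]
      exact Dvd.intro _ rfl
  have hid := logDeriv_identity s Q x (x 1) (R := ZMod p)
  have h3 : (X - 1 : (ZMod p)[X]) ^ (p - 2) ∣ U * indepPoly p (fun a => (x a : ZMod p)) := by
    have : U * indepPoly p (fun a => (x a : ZMod p)) = X * (∏ a ∈ s, Q a) * derivative U := by
      rw [hid]
      rfl
    rw [this]
    exact Dvd.dvd.mul_left hU' _
  have hprime : Prime (X - 1 : (ZMod p)[X]) := by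
    have := prime_X_sub_C (1 : ZMod p)
    rwa [C_1] at this
  refine hprime.pow_dvd_of_dvd_mul_left _ ?_ h3
  -- `X - 1 ∤ U`
  intro hd
  have hd' : (X - C (1 : ZMod p)) ∣ U := by rwa [C_1]
  rw [dvd_iff_isRoot, IsRoot.def] at hd'
  have : eval 1 U = ∏ a ∈ s, (a : ZMod p) ^ x a := by
    simp [U, Q, eval_prod, eval_finsetSum]
  rw [this, Finset.prod_eq_zero_iff] at hd'
  obtain ⟨b, hb, hb0⟩ := hd'
  have hb1 : (b : ZMod p) = 0 := eq_zero_of_pow_eq_zero hb0
  rw [ZMod.natCast_eq_zero_iff] at hb1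
  have hb2 := Finset.mem_Icc.mp hb
  have := Nat.le_of_dvd (by omega) hb1
  omega

theorem cycloUnitsIndep_five {K : Type} [Field K] [NumberField K]
    [IsCyclotomicExtension {5} ℚ K] {ζ : K} (hζ : IsPrimitiveRoot ζ 5) : CycloUnitsIndep hζ :=
  haveI : Fact (Nat.Prime 5) := ⟨by norm_num⟩
  cycloUnitsIndep_of_S2 hζ indepS2_five

theorem cycloUnitsIndep_seven {K : Type} [Field K] [NumberField K]
    [IsCyclotomicExtension {7} ℚ K] {ζ : K} (hζ : IsPrimitiveRoot ζ 7) : CycloUnitsIndep hζ :=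
  haveI : Fact (Nat.Prime 7) := ⟨by norm_num⟩
  cycloUnitsIndep_of_S2 hζ indepS2_seven

theorem cycloUnitsIndep_eleven {K : Type} [Field K] [NumberField K]
    [IsCyclotomicExtension {11} ℚ K] {ζ : K} (hζ : IsPrimitiveRoot ζ 11) : CycloUnitsIndep hζ :=
  haveI : Fact (Nat.Prime 11) := ⟨by norm_num⟩
  cycloUnitsIndep_of_S2 hζ indepS2_eleven

theorem cycloUnitsIndep_thirteen {K : Type} [Field K] [NumberField K]
    [IsCyclotomicExtension {13} ℚ K] {ζ : K} (hζ : IsPrimitiveRoot ζ 13) : CycloUnitsIndep hζ :=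
  haveI : Fact (Nat.Prime 13) := ⟨by norm_num⟩
  cycloUnitsIndep_of_S2 hζ indepS2_thirteen

end Fermat.Agent.Lib.Kummer
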