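import Fermat.Agent.Lib.Kummer.Basic

set_option autoImplicit false

namespace Fermat.Agent.Lib.Kummer

open NumberField Polynomial Finset

theorem cyclotomic_prime_zmod (p : ℕ) [hp : Fact p.Prime] :
    cyclotomic p (ZMod p) = (X - 1) ^ (p - 1) := by
  have := cyclotomic_mul_prime_pow_eq (ZMod p) (p := p) (m := 1) (by simpa using hp.out.one_lt.ne')
    (k := 1) one_pos
  simpa using this

theorem X_sub_one_pow_dvd_of_dvd_aeval {p : ℕ} [hp : Fact p.Prime] {K : Type} [Field K]
    [NumberField K] [IsCyclotomicExtension {p} ℚ K] {ζ : K} (hζ : IsPrimitiveRoot ζ p) (F : ℤ[X])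
    (h : (p : 𝓞 K) ∣ aeval hζ.toInteger F) :
    (X - 1 : (ZMod p)[X]) ^ (p - 1) ∣ F.map (Int.castRingHom (ZMod p)) := by
  have hz := hζ.toInteger_isPrimitiveRoot
  have hmonic : (cyclotomic p ℤ).Monic := cyclotomic.monic p ℤ
  set R := F %ₘ cyclotomic p ℤ with hR
  set Q := F /ₘ cyclotomic p ℤ with hQ
  have hF : F = R + cyclotomic p ℤ * Q := (modByMonic_add_div F (cyclotomic p ℤ)).symm
  have hdeg : R.natDegree < p - 1 := by
    have h1 := natDegree_modByMonic_lt F hmonic (by
      intro h1
      have := congrArg natDegree h1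
      rw [natDegree_cyclotomic, Nat.totient_prime hp.out, natDegree_one] at this
      have := hp.out.two_le
      omega)
    rwa [natDegree_cyclotomic, Nat.totient_prime hp.out] at h1
  have hroot : aeval hζ.toInteger (cyclotomic p ℤ) = 0 := by
    have h1 : IsRoot (cyclotomic p (𝓞 K)) hζ.toInteger := hz.isRoot_cyclotomic hp.out.pos
    rw [← map_cyclotomic_int, IsRoot.def, eval_map] at h1
    rw [aeval_def, show algebraMap ℤ (𝓞 K) = Int.castRingHom (𝓞 K) from rfl]
    exact h1
  have haev : aeval hζ.toInteger F = ∑ i ∈ range (p - 1), (R.coeff i : 𝓞 K) * hζ.toInteger ^ i := by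
    rw [hF, map_add, map_mul, hroot, zero_mul, add_zero, aeval_eq_sum_range' hdeg]
    simp [Algebra.smul_def]
  rw [haev] at h
  have hcoeff := dvd_coeff_of_dvd_sum hζ R.coeff h
  have hRmap : R.map (Int.castRingHom (ZMod p)) = 0 := by
    ext i
    rw [coeff_map, coeff_zero]
    by_cases hi : i < p - 1
    · exact (ZMod.intCast_zmod_eq_zero_iff_dvd _ _).2 (hcoeff i hi)
    · rw [coeff_eq_zero_of_natDegree_lt (by omega)]
      simp
  rw [hF, Polynomial.map_add, hRmap, zero_add, Polynomial.map_mul, map_cyclotomic,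
    cyclotomic_prime_zmod]
  exact Dvd.intro _ rfl

end Fermat.Agent.Lib.Kummer
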