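import Fermat.Agent.Lib.Kummer.CaseI
import Fermat.Agent.Lib.Kummer.CaseII

set_option autoImplicit false

namespace Fermat.Agent.Lib.Kummer

open NumberField

/-- If `a ^ p + b ^ p = c ^ p` and `a`, `b` are coprime then so are `c` and `b`. -/
theorem isCoprime_of_eq {p : ℕ} (hp : 0 < p) {a b c : ℤ} (hab : IsCoprime a b)
    (h : a ^ p + b ^ p = c ^ p) : IsCoprime c b := by
  have h2 : IsCoprime (c ^ p) b := by
    rw [← h]
    have h3 : IsCoprime (a ^ p) b := hab.pow_left
    have e : a ^ p + b ^ p = a ^ p + b * b ^ (p - 1) := by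
      rw [← pow_succ', Nat.sub_add_cancel hp]
    rw [e]
    exact h3.add_mul_left_left _
  exact (IsCoprime.pow_left_iff hp).mp h2

/-- Fermat's Last Theorem for a prime `p ≥ 5` such that `ℤ[ζ_p]` is a PID and Kummer's lemma
holds. -/
theorem flt_of_pid_of_kummerLemma {p : ℕ} [hp : Fact p.Prime] (hp5 : 5 ≤ p) (K : Type) [Field K]
    [NumberField K] [IsCyclotomicExtension {p} ℚ K] [IsPrincipalIdealRing (𝓞 K)]
    (hK : KummerLemma p K) {a b c : ℤ} (ha : a ≠ 0) (hb : b ≠ 0) (hc : c ≠ 0)
    (hab : IsCoprime a b) (h : a ^ p + b ^ p = c ^ p) : False := by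
  have hodd : Odd p := hp.out.odd_of_ne_two (by omega)
  have hpp : Prime (p : ℤ) := Nat.prime_iff_prime_int.mp hp.out
  by_cases hpabc : (p : ℤ) ∣ a * b * c
  · rcases hpp.dvd_or_dvd hpabc with h1 | h1
    · rcases hpp.dvd_or_dvd h1 with h2 | h2
      · -- `p ∣ a`
        have hcb : IsCoprime c (-b) := (isCoprime_of_eq hp.out.pos hab h).neg_right
        have h' : c ^ p + (-b) ^ p = a ^ p := by rw [hodd.neg_pow]; linarith
        exact caseII hp5 K hK hcb h' ha h2
      · -- `p ∣ b`
        have hca : IsCoprime c (-a) :=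
          (isCoprime_of_eq hp.out.pos hab.symm (by rw [add_comm]; exact h)).neg_right
        have h' : c ^ p + (-a) ^ p = b ^ p := by rw [hodd.neg_pow]; linarith
        exact caseII hp5 K hK hca h' hb h2
    · exact caseII hp5 K hK hab h hc h1
  · exact caseI hp5 K hab h hpabc

end Fermat.Agent.Lib.Kummer
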