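/-
M3 of the FLT-SMALL project: `ℤ[ζ_p]` is a PID for `p = 7, 11, 13`.
Minkowski bound + explicit generators of small norm, with norm certificates
`∏ₖ g(ζᵏ) = n` checked by `linear_combination`.
-/
import Mathlib

set_option autoImplicit false
set_option linter.unusedSimpArgs false
set_option linter.style.haveILetI false

open NumberField Ideal Polynomial IsCyclotomicExtension Module InfinitePlace Nat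
open scoped Real

namespace Fermat.Agent.Lib.Kummer

/-- A principal ideal whose norm is `ℓ ^ f`, where `f` is the common inertia degree of the primes
above `ℓ`, is a prime above `ℓ`. -/
theorem exists_isPrincipal_mem_primesOver {K : Type} [Field K] [NumberField K] (ℓ f : ℕ)
    (hℓ : ℓ.Prime) (hf : f ≠ 0)
    (hdeg : ∀ P : Ideal (𝓞 K), P.IsPrime → P.LiesOver (span {(ℓ : ℤ)}) → P.inertiaDeg ℤ = f)
    (α : 𝓞 K) (hα : (Algebra.norm ℤ α).natAbs = ℓ ^ f) :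
    ∃ P ∈ primesOver (span {(ℓ : ℤ)}) (𝓞 K), Submodule.IsPrincipal P := by
  have hI : absNorm (span {α}) = ℓ ^ f := by rw [absNorm_span_singleton, hα]
  have hne : span {α} ≠ ⊤ := by
    intro h
    rw [← absNorm_eq_one_iff, hI] at h
    exact hℓ.one_lt.ne' ((pow_eq_one_iff.mp h).resolve_right hf)
  obtain ⟨P, hPmax, hle⟩ := Ideal.exists_le_maximal _ hne
  have hPprime : P.IsPrime := hPmax.isPrime
  have hdvd : absNorm P ∣ ℓ ^ f := hI ▸ absNorm_dvd_absNorm_of_le hle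
  obtain ⟨j, -, hj⟩ := (Nat.dvd_prime_pow hℓ).mp hdvd
  have hj0 : j ≠ 0 := by
    rintro rfl
    rw [pow_zero, absNorm_eq_one_iff] at hj
    exact hPmax.ne_top hj
  have hmem : (ℓ : 𝓞 K) ∈ P := by
    have h1 := absNorm_mem P
    rw [hj] at h1
    push_cast at h1
    exact hPprime.mem_of_pow_mem j h1
  have hlies : P.LiesOver (span {(ℓ : ℤ)}) := by
    rw [liesOver_iff]
    have hmax : (span {(ℓ : ℤ)}).IsMaximal :=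
      (Ideal.span_singleton_prime (by exact_mod_cast hℓ.ne_zero)).mpr
        (Nat.prime_iff_prime_int.mp hℓ) |>.isMaximal (by simpa using hℓ.ne_zero)
    apply hmax.eq_of_le (hPprime.under ℤ).ne_top
    rw [span_singleton_le_iff_mem, mem_comap]
    simpa using hmem
  have hP : absNorm P = ℓ ^ f := by
    rw [← natAbs_pow_inertiaDeg (ℓ : ℤ) P, hdeg P hPprime hlies, Int.natAbs_natCast]
  refine ⟨P, ⟨hPprime, hlies⟩, ?_⟩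
  obtain ⟨J, hJ⟩ := Ideal.dvd_iff_le.mpr hle
  have hJ1 : absNorm J = 1 := by
    have := congrArg absNorm hJ
    rw [map_mul, hI, hP] at this
    exact (Nat.eq_of_mul_eq_mul_left (pow_pos hℓ.pos f) (by simpa using this.symm))
  rw [absNorm_eq_one_iff] at hJ1
  rw [hJ1, Ideal.mul_top] at hJ
  exact ⟨α, hJ.symm⟩

/-- Norm certificate: if the product of the conjugates `g(ζ^k)` is the integer `n`, then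
`g(ζ)` has norm `± n`. -/
theorem natAbs_norm_eq_of_prod {q : ℕ} [hq : Fact q.Prime] {K : Type} [Field K] [NumberField K]
    [IsCyclotomicExtension {q} ℚ K] (g : ℤ[X]) (n : ℤ)
    (h : ∏ k ∈ Finset.Ico 1 q, aeval ((zeta q ℚ K) ^ k) g = (n : K)) :
    (Algebra.norm ℤ (aeval (zeta_spec q ℚ K).toInteger g)).natAbs = n.natAbs := by
  have hirr : Irreducible (cyclotomic q ℚ) := cyclotomic.irreducible_rat hq.out.pos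
  set ζ := zeta q ℚ K with hζdef
  have hζ : IsPrimitiveRoot ζ q := zeta_spec q ℚ K
  have hcoe : ((aeval hζ.toInteger g : 𝓞 K) : K) = aeval ζ g := by
    have := Polynomial.aeval_algebraMap_apply K hζ.toInteger g
    simpa using this.symm
  have hk : ∀ k ∈ Finset.Ico 1 q,
      Algebra.norm ℚ (aeval (ζ ^ k) g) = Algebra.norm ℚ (aeval ζ g) := by
    intro k hk
    rw [Finset.mem_Ico] at hk
    have hcop : k.Coprime q :=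
      (Nat.Coprime.symm ((Nat.Prime.coprime_iff_not_dvd hq.out).mpr
        (fun hd => by have := Nat.le_of_dvd (by omega) hd; omega)))
    have hμ : IsPrimitiveRoot (ζ ^ k) q := hζ.pow_of_coprime k hcop
    have h1 : fromZetaAut hμ hirr (aeval ζ g) = aeval (ζ ^ k) g := by
      have := Polynomial.aeval_algHom_apply ((fromZetaAut hμ hirr).toAlgHom.restrictScalars ℤ) ζ g
      rw [AlgHom.restrictScalars_apply, AlgHom.restrictScalars_apply] at this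
      have h0 : fromZetaAut hμ hirr ζ = ζ ^ k := fromZetaAut_spec hμ hirr
      change aeval (fromZetaAut hμ hirr ζ) g = fromZetaAut hμ hirr (aeval ζ g) at this
      rw [← this, h0]
    rw [← h1, Algebra.norm_eq_of_algEquiv]
  have h2 := congrArg (Algebra.norm ℚ) h
  rw [map_prod, Finset.prod_congr rfl hk, Finset.prod_const, Nat.card_Ico] at h2
  have h3 : Algebra.norm ℚ (n : K) = (n : ℚ) ^ (q - 1) := by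
    have := Algebra.norm_algebraMap (S := K) (n : ℚ)
    rw [IsCyclotomicExtension.finrank K hirr, Nat.totient_prime hq.out] at this
    simpa using this
  rw [h3, ← hcoe, ← Algebra.coe_norm_int] at h2
  have h4 : (Algebra.norm ℤ (aeval hζ.toInteger g : 𝓞 K)) ^ (q - 1) = n ^ (q - 1) := by
    exact_mod_cast h2
  have h5 := congrArg Int.natAbs h4
  rw [Int.natAbs_pow, Int.natAbs_pow] at h5
  exact Nat.pow_left_injective (n := q - 1) (by have := hq.out.two_le; omega) h5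

theorem orderOf_zmod_ne_zero {q ℓ : ℕ} [hq : Fact q.Prime] (hℓ : ℓ.Prime) (hne : ℓ ≠ q) :
    orderOf (ℓ : ZMod q) ≠ 0 := by
  have h0 : (ℓ : ZMod q) ≠ 0 := by
    rw [Ne, ZMod.natCast_eq_zero_iff]
    exact fun h => hne ((Nat.prime_dvd_prime_iff_eq hq.out hℓ).mp h).symm
  have := ZMod.pow_card_sub_one_eq_one h0
  exact (orderOf_pos_iff.mpr (isOfFinOrder_iff_pow_eq_one.mpr
    ⟨q - 1, by have := hq.out.two_le; omega, this⟩)).ne'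

theorem pow_zmod_eq_one_iff {q ℓ j : ℕ} [hq : Fact q.Prime] :
    (ℓ : ZMod q) ^ j = 1 ↔ ℓ ^ j % q = 1 := by
  have h1 : (ℓ : ZMod q) ^ j = ((ℓ ^ j : ℕ) : ZMod q) := by push_cast; rfl
  have h2 : (1 : ZMod q) = ((1 : ℕ) : ZMod q) := by push_cast; rfl
  rw [h1, h2, ZMod.natCast_eq_natCast_iff', Nat.mod_eq_of_lt hq.out.one_lt]

theorem lt_pow_orderOf {q ℓ B : ℕ} [hq : Fact q.Prime] (d : ℕ) (hℓ : ℓ.Prime) (hne : ℓ ≠ q)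
    (hd : ∀ j, 0 < j → j < d → ℓ ^ j % q ≠ 1) (hB : B < ℓ ^ d) :
    B < ℓ ^ orderOf (ℓ : ZMod q) := by
  have h0 := orderOf_zmod_ne_zero (q := q) hℓ hne
  have hle : d ≤ orderOf (ℓ : ZMod q) := by
    by_contra hlt
    exact hd _ (Nat.pos_of_ne_zero h0) (not_le.mp hlt)
      (pow_zmod_eq_one_iff.mp (pow_orderOf_eq_one _))
  exact lt_of_lt_of_le hB (Nat.pow_le_pow_right hℓ.pos hle)

/-- The PID criterion for prime cyclotomic fields. -/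
theorem pid_of_certificates (q : ℕ) [hq : Fact q.Prime] (K : Type) [Field K] [NumberField K]
    [IsCyclotomicExtension {q} ℚ K] (B : ℕ)
    (hB : (4 / π) ^ nrComplexPlaces K *
      ((finrank ℚ K)! / (finrank ℚ K) ^ (finrank ℚ K) * √|discr K|) < B + 1)
    (h : ∀ ℓ : ℕ, ℓ.Prime → ℓ ≤ B → ℓ ≠ q → B < ℓ ^ orderOf (ℓ : ZMod q) ∨
      ∃ α : 𝓞 K, (Algebra.norm ℤ α).natAbs = ℓ ^ orderOf (ℓ : ZMod q)) :
    IsPrincipalIdealRing (𝓞 K) := by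
  have : IsGalois ℚ K := IsCyclotomicExtension.isGalois {q} ℚ K
  have hfloor : ⌊(4 / π) ^ nrComplexPlaces K *
      ((finrank ℚ K)! / (finrank ℚ K) ^ (finrank ℚ K) * √|discr K|)⌋₊ ≤ B := by
    rw [← Nat.lt_succ_iff, Nat.floor_lt (by positivity)]
    exact_mod_cast hB
  apply RingOfIntegers.isPrincipalIdealRing_of_isPrincipal_of_lt_or_isPrincipal_of_mem_primesOver_of_mem_Icc
  intro ℓ hℓmem hℓ
  rw [Finset.mem_Icc] at hℓmem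
  by_cases hne : ℓ = q
  · subst hne
    refine ⟨span {(zeta_spec ℓ ℚ K).toInteger - 1}, ⟨inferInstance, ?_⟩, Or.inr ⟨_, rfl⟩⟩
    have : IsCyclotomicExtension {ℓ ^ (0 + 1)} ℚ K := by simpa
    have h1 : IsPrimitiveRoot (zeta ℓ ℚ K) (ℓ ^ (0 + 1)) := by simpa using zeta_spec ℓ ℚ K
    exact Rat.liesOver_span_zeta_sub_one ℓ 0 h1
  · have : Fact ℓ.Prime := ⟨hℓ⟩
    have hnd : ¬ ℓ ∣ q := fun hd => hne ((Nat.prime_dvd_prime_iff_eq hℓ hq.out).mp hd)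
    have hdeg : ∀ P : Ideal (𝓞 K), P.IsPrime → P.LiesOver (span {(ℓ : ℤ)}) →
        P.inertiaDeg ℤ = orderOf (ℓ : ZMod q) := fun P h1 h2 =>
      Rat.inertiaDeg_eq_of_not_dvd ℓ K P hnd
    rcases h ℓ hℓ (hℓmem.2.trans hfloor) hne with h1 | ⟨α, hα⟩
    · obtain ⟨⟨P, hP1, hP2⟩⟩ := (span {(ℓ : ℤ)}).nonempty_primesOver (S := 𝓞 K)
      exact ⟨P, ⟨hP1, hP2⟩, Or.inl (by rw [hdeg P hP1 hP2]; exact lt_of_le_of_lt hfloor h1)⟩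
    · obtain ⟨P, hP, hprin⟩ := exists_isPrincipal_mem_primesOver ℓ _ hℓ
        (orderOf_zmod_ne_zero hℓ hne) hdeg α hα
      exact ⟨P, hP, Or.inr hprin⟩

theorem minkowski_aux (q : ℕ) [hq : Fact q.Prime] (K : Type) [Field K] [NumberField K]
    [IsCyclotomicExtension {q} ℚ K] (s : ℕ) (B : ℕ) (hs : q ^ (q - 2) < s ^ 2)
    (hB : ((400 : ℝ) / 314) ^ ((q - 1) / 2) *
      (((q - 1)! : ℝ) / ((q - 1 : ℕ) : ℝ) ^ (q - 1) * s) < B + 1) :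
    (4 / π) ^ nrComplexPlaces K *
      ((finrank ℚ K)! / (finrank ℚ K) ^ (finrank ℚ K) * √|discr K|) < B + 1 := by
  rw [Rat.discr_prime q K, IsCyclotomicExtension.finrank (n := q) K
    (cyclotomic.irreducible_rat hq.out.pos), Rat.nrComplexPlaces_eq_totient_div_two q,
    totient_prime hq.out]
  have h1 : (4 / π) ≤ (400 : ℝ) / 314 := by
    rw [div_le_div_iff₀ Real.pi_pos (by norm_num)]
    have := Real.pi_gt_d2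
    linarith
  have h2 : √|(((-1) ^ ((q - 1) / 2) * (q : ℤ) ^ (q - 2) : ℤ) : ℝ)| ≤ s := by
    rw [Real.sqrt_le_left (by positivity)]
    push_cast
    rw [abs_mul, abs_pow, abs_neg, abs_one, one_pow, one_mul, abs_of_nonneg (by positivity)]
    exact_mod_cast hs.le
  refine lt_of_le_of_lt ?_ hB
  gcongr

/-- existence of an element of given norm from a certificate -/
theorem exists_norm_of_cert {q : ℕ} [hq : Fact q.Prime] {K : Type} [Field K] [NumberField K]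
    [IsCyclotomicExtension {q} ℚ K] (g : ℤ[X]) (n : ℤ) (m : ℕ) (hm : n.natAbs = m)
    (h : ∀ ζ : K, ∑ i ∈ Finset.range q, ζ ^ i = 0 →
      ∏ k ∈ Finset.Ico 1 q, aeval (ζ ^ k) g = (n : K)) :
    ∃ α : 𝓞 K, (Algebra.norm ℤ α).natAbs = m :=
  ⟨_, (natAbs_norm_eq_of_prod g n
    (h _ ((zeta_spec q ℚ K).geom_sum_eq_zero hq.out.one_lt))).trans hm⟩

/-! ### Norm certificates -/

theorem cert_11_23 {K : Type} [Field K] (ζ : K) (hΦ : ∑ i ∈ Finset.range 11, ζ ^ i = 0) :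
    ∏ k ∈ Finset.Ico 1 11, aeval (ζ ^ k) (1 + X + X ^ 3 : ℤ[X]) = ((23 : ℤ) : K) := by
  simp only [Finset.sum_range_succ, Finset.range_zero, Finset.sum_empty] at hΦ
  simp only [Finset.prod_Ico_eq_prod_range, Finset.prod_range_succ, Finset.range_zero,
    Finset.prod_empty, map_add, map_sub, map_one, map_pow, aeval_X, Nat.reduceSub, Nat.reduceAdd]
  push_cast
  linear_combination ((-22) + (23)*ζ + (2)*ζ^3 + (-1)*ζ^4 + (2)*ζ^5 + (2)*ζ^6 + (1)*ζ^7 + (1)*ζ^8 + (5)*ζ^9 + (3)*ζ^10 + (-21)*ζ^11 + (30)*ζ^12 + (2)*ζ^13 + (8)*ζ^14 + (8)*ζ^15 + (7)*ζ^16 + (6)*ζ^17 + (16)*ζ^18 + (4)*ζ^19 + (16)*ζ^20 + (18)*ζ^21 + (-13)*ζ^22 + (38)*ζ^23 + (24)*ζ^24 + (15)*ζ^25 + (17)*ζ^26 + (34)*ζ^27 + (18)*ζ^28 + (25)*ζ^29 + (33)*ζ^30 + (30)*ζ^31 + (23)*ζ^32 + (26)*ζ^33 + (43)*ζ^34 + (44)*ζ^35 + (52)*ζ^36 + (34)*ζ^37 + (38)*ζ^38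 + (66)*ζ^39 + (33)*ζ^40 + (45)*ζ^41 + (75)*ζ^42 + (36)*ζ^43 + (39)*ζ^44 + (108)*ζ^45 + (39)*ζ^46 + (62)*ζ^47 + (86)*ζ^48 + (46)*ζ^49 + (69)*ζ^50 + (91)*ζ^51 + (57)*ζ^52 + (65)*ζ^53 + (109)*ζ^54 + (43)*ζ^55 + (85)*ζ^56 + (102)*ζ^57 + (69)*ζ^58 + (68)*ζ^59 + (108)*ζ^60 + (64)*ζ^61 + (78)*ζ^62 + (112)*ζ^63 + (59)*ζ^64 + (81)*ζ^65 + (124)*ζ^66 + (47)*ζ^67 + (90)*ζ^68 + (112)*ζ^69 + (56)*ζ^70 + (69)*ζ^71 + (135)*ζ^72 + (43)*ζ^73 + (82)*ζ^74 + (105)*ζ^75 + (57)*ζ^76 + (74)*ζ^77 + (109)*ζ^78 + (50)*ζ^79 + (72)*ζ^80 + (94)*ζ^81 + (43)*ζ^82 + (76)*ζ^83 + (98)*ζ^84 + (28)*ζ^85 + (70)*ζ^86 + (89)*ζ^87 + (33)*ζ^88 + (63)*ζ^89 + (81)*ζ^90 + (30)*ζ^91 + (51)*ζ^92 + (81)*ζ^93 + (20)*ζ^94 + (54)*ζ^95 + (60)*ζ^96 + (23)*ζ^97 + (40)*ζ^98 + (64)*ζ^99 + (12)*ζ^100 + (48)*ζ^101 + (42)*ζ^102 + (19)*ζ^103 + (28)*ζ^104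 + (53)*ζ^105 + (-1)*ζ^106 + (42)*ζ^107 + (25)*ζ^108 + (17)*ζ^109 + (19)*ζ^110 + (40)*ζ^111 + (-6)*ζ^112 + (30)*ζ^113 + (19)*ζ^114 + (10)*ζ^115 + (9)*ζ^116 + (31)*ζ^117 + (-9)*ζ^118 + (22)*ζ^119 + (11)*ζ^120 + (10)*ζ^121 + (4)*ζ^122 + (21)*ζ^123 + (-10)*ζ^124 + (19)*ζ^125 + (2)*ζ^126 + (5)*ζ^127 + (3)*ζ^128 + (12)*ζ^129 + (-7)*ζ^130 + (13)*ζ^131 + (1)*ζ^132 + (3)*ζ^133 + (9)*ζ^135 + (-6)*ζ^136 + (7)*ζ^137 + (2)*ζ^139 + (-1)*ζ^140 + (5)*ζ^141 + (-3)*ζ^142 + (4)*ζ^143 + (2)*ζ^147 + (-2)*ζ^148 + (3)*ζ^149 + (-1)*ζ^150 + (1)*ζ^153 + (-1)*ζ^154 + (1)*ζ^155) * hΦ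

theorem cert_13_53 {K : Type} [Field K] (ζ : K) (hΦ : ∑ i ∈ Finset.range 13, ζ ^ i = 0) :
    ∏ k ∈ Finset.Ico 1 13, aeval (ζ ^ k) (1 + X + X ^ 3 : ℤ[X]) = ((53 : ℤ) : K) := by
  simp only [Finset.sum_range_succ, Finset.range_zero, Finset.sum_empty] at hΦ
  simp only [Finset.prod_Ico_eq_prod_range, Finset.prod_range_succ, Finset.range_zero,
    Finset.prod_empty, map_add, map_sub, map_one, map_pow, aeval_X, Nat.reduceSub, Nat.reduceAdd]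
  push_cast
  linear_combination ((-52) + (53)*ζ + (2)*ζ^3 + (-1)*ζ^4 + (2)*ζ^5 + (2)*ζ^6 + (1)*ζ^7 + (1)*ζ^8 + (5)*ζ^9 + (3)*ζ^10 + (2)*ζ^11 + (8)*ζ^12 + (-50)*ζ^13 + (61)*ζ^14 + (10)*ζ^15 + (8)*ζ^16 + (7)*ζ^17 + (20)*ζ^18 + (7)*ζ^19 + (18)*ζ^20 + (24)*ζ^21 + (17)*ζ^22 + (20)*ζ^23 + (33)*ζ^24 + (23)*ζ^25 + (-24)*ζ^26 + (101)*ζ^27 + (33)*ζ^28 + (38)*ζ^29 + (55)*ζ^30 + (49)*ζ^31 + (43)*ζ^32 + (84)*ζ^33 + (46)*ζ^34 + (74)*ζ^35 + (91)*ζ^36 + (71)*ζ^37 + (74)*ζ^38 + (72)*ζ^39 + (134)*ζ^40 + (101)*ζ^41 + (136)*ζ^42 + (102)*ζ^43 + (123)*ζ^44 + (173)*ζ^45 + (117)*ζ^46 + (143)*ζ^47 + (205)*ζ^48 + (135)*ζ^49 + (167)*ζ^50 + (225)*ζ^51 + (124)*ζ^52 + (228)*ζ^53 + (282)*ζ^54 + (186)*ζ^55 + (221)*ζ^56 + (298)*ζ^57 + (223)*ζ^58 + (228)*ζ^59 + (342)*ζ^60 + (245)*ζ^61 + (262)*ζ^62 + (376)*ζ^63 + (266)*ζ^64 + (244)*ζ^65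 + (485)*ζ^66 + (276)*ζ^67 + (327)*ζ^68 + (436)*ζ^69 + (322)*ζ^70 + (335)*ζ^71 + (485)*ζ^72 + (337)*ζ^73 + (369)*ζ^74 + (505)*ζ^75 + (353)*ζ^76 + (402)*ζ^77 + (521)*ζ^78 + (393)*ζ^79 + (413)*ζ^80 + (569)*ζ^81 + (383)*ζ^82 + (417)*ζ^83 + (605)*ζ^84 + (390)*ζ^85 + (430)*ζ^86 + (616)*ζ^87 + (406)*ζ^88 + (436)*ζ^89 + (646)*ζ^90 + (414)*ζ^91 + (433)*ζ^92 + (645)*ζ^93 + (416)*ζ^94 + (439)*ζ^95 + (625)*ζ^96 + (455)*ζ^97 + (400)*ζ^98 + (678)*ζ^99 + (392)*ζ^100 + (435)*ζ^101 + (627)*ζ^102 + (428)*ζ^103 + (408)*ζ^104 + (642)*ζ^105 + (378)*ζ^106 + (425)*ζ^107 + (587)*ζ^108 + (401)*ζ^109 + (383)*ζ^110 + (595)*ζ^111 + (377)*ζ^112 + (382)*ζ^113 + (543)*ζ^114 + (386)*ζ^115 + (317)*ζ^116 + (566)*ζ^117 + (328)*ζ^118 + (341)*ζ^119 + (507)*ζ^120 + (324)*ζ^121 + (284)*ζ^122 + (507)*ζ^123 + (287)*ζ^124 + (287)*ζ^125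 + (454)*ζ^126 + (267)*ζ^127 + (253)*ζ^128 + (425)*ζ^129 + (244)*ζ^130 + (237)*ζ^131 + (390)*ζ^132 + (236)*ζ^133 + (198)*ζ^134 + (350)*ζ^135 + (221)*ζ^136 + (174)*ζ^137 + (336)*ζ^138 + (179)*ζ^139 + (163)*ζ^140 + (288)*ζ^141 + (175)*ζ^142 + (124)*ζ^143 + (275)*ζ^144 + (131)*ζ^145 + (143)*ζ^146 + (211)*ζ^147 + (144)*ζ^148 + (79)*ζ^149 + (232)*ζ^150 + (92)*ζ^151 + (103)*ζ^152 + (162)*ζ^153 + (117)*ζ^154 + (50)*ζ^155 + (178)*ζ^156 + (56)*ζ^157 + (81)*ζ^158 + (115)*ζ^159 + (91)*ζ^160 + (25)*ζ^161 + (141)*ζ^162 + (31)*ζ^163 + (61)*ζ^164 + (74)*ζ^165 + (71)*ζ^166 + (5)*ζ^167 + (109)*ζ^168 + (14)*ζ^169 + (42)*ζ^170 + (49)*ζ^171 + (54)*ζ^172 + (-8)*ζ^173 + (83)*ζ^174 + (6)*ζ^175 + (30)*ζ^176 + (29)*ζ^177 + (36)*ζ^178 + (-10)*ζ^179 + (56)*ζ^180 + (-2)*ζ^181 + (22)*ζ^182 + (14)*ζ^183 + (28)*ζ^184 + (-10)*ζ^185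 + (36)*ζ^186 + (-2)*ζ^187 + (15)*ζ^188 + (8)*ζ^189 + (18)*ζ^190 + (-13)*ζ^191 + (27)*ζ^192 + (-5)*ζ^193 + (8)*ζ^194 + (4)*ζ^195 + (11)*ζ^196 + (-8)*ζ^197 + (17)*ζ^198 + (-4)*ζ^199 + (4)*ζ^200 + (2)*ζ^201 + (7)*ζ^202 + (-5)*ζ^203 + (8)*ζ^204 + (-3)*ζ^205 + (3)*ζ^206 + (4)*ζ^208 + (-3)*ζ^209 + (5)*ζ^210 + (-1)*ζ^211 + (2)*ζ^214 + (-2)*ζ^215 + (3)*ζ^216 + (-1)*ζ^217 + (1)*ζ^220 + (-1)*ζ^221 + (1)*ζ^222) * hΦ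

theorem cert_13_27 {K : Type} [Field K] (ζ : K) (hΦ : ∑ i ∈ Finset.range 13, ζ ^ i = 0) :
    ∏ k ∈ Finset.Ico 1 13, aeval (ζ ^ k) (1 + X - X ^ 3 : ℤ[X]) = ((27 : ℤ) : K) := by
  simp only [Finset.sum_range_succ, Finset.range_zero, Finset.sum_empty] at hΦ
  simp only [Finset.prod_Ico_eq_prod_range, Finset.prod_range_succ, Finset.range_zero,
    Finset.prod_empty, map_add, map_sub, map_one, map_pow, aeval_X, Nat.reduceSub, Nat.reduceAdd]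
  push_cast
  linear_combination ((-26) + (27)*ζ + (1)*ζ^4 + (1)*ζ^7 + (1)*ζ^8 + (1)*ζ^9 + (-1)*ζ^10 + (2)*ζ^11 + (2)*ζ^12 + (-26)*ζ^13 + (27)*ζ^14 + (2)*ζ^16 + (1)*ζ^17 + (1)*ζ^19 + (2)*ζ^20 + (-1)*ζ^22 + (1)*ζ^24 + (1)*ζ^25 + (-30)*ζ^26 + (25)*ζ^27 + (1)*ζ^28 + (-2)*ζ^29 + (-3)*ζ^30 + (-3)*ζ^31 + (-1)*ζ^32 + (-4)*ζ^33 + (-6)*ζ^34 + (-2)*ζ^35 + (-1)*ζ^36 + (-5)*ζ^37 + (-6)*ζ^38 + (-32)*ζ^39 + (26)*ζ^40 + (-5)*ζ^41 + (-6)*ζ^42 + (-4)*ζ^43 + (-1)*ζ^44 + (-1)*ζ^45 + (-7)*ζ^46 + (-1)*ζ^47 + (5)*ζ^48 + (-1)*ζ^49 + (-5)*ζ^50 + (3)*ζ^51 + (-24)*ζ^52 + (32)*ζ^53 + (6)*ζ^55 + (11)*ζ^56 + (6)*ζ^57 + (3)*ζ^58 + (6)*ζ^59 + (12)*ζ^60 + (11)*ζ^61 + (4)*ζ^62 + (6)*ζ^63 + (16)*ζ^64 + (-22)*ζ^65 + (33)*ζ^66 + (10)*ζ^67 + (11)*ζ^68 + (2)*ζ^69 + (2)*ζ^70 + (3)*ζ^71 + (7)*ζ^72 + (1)*ζ^73 + (1)*ζ^74 + (-7)*ζ^75 +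 (1)*ζ^76 + (-45)*ζ^78 + (29)*ζ^79 + (-9)*ζ^80 + (-7)*ζ^81 + (-17)*ζ^82 + (-7)*ζ^83 + (-3)*ζ^84 + (-16)*ζ^85 + (-18)*ζ^86 + (-8)*ζ^87 + (-10)*ζ^88 + (-10)*ζ^89 + (-10)*ζ^90 + (-46)*ζ^91 + (29)*ζ^92 + (-3)*ζ^93 + (-14)*ζ^94 + (-5)*ζ^95 + (7)*ζ^96 + (-5)*ζ^97 + (-4)*ζ^98 + (2)*ζ^99 + (10)*ζ^100 + (1)*ζ^101 + (9)*ζ^102 + (6)*ζ^103 + (-24)*ζ^104 + (42)*ζ^105 + (8)*ζ^106 + (9)*ζ^107 + (11)*ζ^108 + (15)*ζ^109 + (13)*ζ^110 + (7)*ζ^111 + (11)*ζ^112 + (10)*ζ^113 + (-1)*ζ^114 + (16)*ζ^115 + (3)*ζ^116 + (-36)*ζ^117 + (40)*ζ^118 + (5)*ζ^119 + (-1)*ζ^120 + (10)*ζ^121 + (-8)*ζ^122 + (-5)*ζ^123 + (-9)*ζ^124 + (-1)*ζ^125 + (-10)*ζ^126 + (-7)*ζ^127 + (-3)*ζ^128 + (-15)*ζ^129 + (-32)*ζ^130 + (25)*ζ^131 + (-4)*ζ^132 + (-8)*ζ^133 + (-8)*ζ^134 + (-10)*ζ^135 + (-9)*ζ^136 + (-2)*ζ^137 + (6)*ζ^138 + (-13)*ζ^139 + (1)*ζ^140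 + (2)*ζ^141 + (-1)*ζ^142 + (-32)*ζ^143 + (41)*ζ^144 + (-11)*ζ^145 + (9)*ζ^146 + (11)*ζ^147 + (-10)*ζ^148 + (9)*ζ^149 + (8)*ζ^150 + (8)*ζ^151 + (-11)*ζ^152 + (12)*ζ^153 + (7)*ζ^154 + (2)*ζ^155 + (-28)*ζ^156 + (32)*ζ^157 + (3)*ζ^158 + (5)*ζ^159 + (-3)*ζ^160 + (-1)*ζ^161 + (-3)*ζ^162 + (7)*ζ^163 + (-3)*ζ^164 + (-6)*ζ^165 + (5)*ζ^166 + (-1)*ζ^167 + (-9)*ζ^168 + (-16)*ζ^169 + (18)*ζ^170 + (-11)*ζ^171 + (10)*ζ^172 + (-8)*ζ^173 + (1)*ζ^174 + (-6)*ζ^175 + (6)*ζ^176 + (-7)*ζ^177 + (2)*ζ^178 + (-4)*ζ^181 + (-8)*ζ^182 + (12)*ζ^183 + (-4)*ζ^184 + (6)*ζ^185 + (-2)*ζ^186 + (2)*ζ^187 + (-1)*ζ^188 + (8)*ζ^189 + (-6)*ζ^190 + (3)*ζ^191 + (1)*ζ^192 + (1)*ζ^193 + (-6)*ζ^194 + (5)*ζ^196 + (-2)*ζ^197 + (1)*ζ^198 + (-2)*ζ^199 + (2)*ζ^200 + (1)*ζ^202 + (-3)*ζ^203 + (2)*ζ^204 + (-1)*ζ^205 + (1)*ζ^206 + (-4)*ζ^207 + (1)*ζ^209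 + (-1)*ζ^210 + (1)*ζ^211 + (2)*ζ^215 + (-1)*ζ^216 + (1)*ζ^217 + (-1)*ζ^220 + (-1)*ζ^221 + (1)*ζ^222) * hΦ

theorem cert_13_131 {K : Type} [Field K] (ζ : K) (hΦ : ∑ i ∈ Finset.range 13, ζ ^ i = 0) :
    ∏ k ∈ Finset.Ico 1 13, aeval (ζ ^ k) (1 - X - X ^ 3 : ℤ[X]) = ((131 : ℤ) : K) := by
  simp only [Finset.sum_range_succ, Finset.range_zero, Finset.sum_empty] at hΦ
  simp only [Finset.prod_Ico_eq_prod_range, Finset.prod_range_succ, Finset.range_zero,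
    Finset.prod_empty, map_add, map_sub, map_one, map_pow, aeval_X, Nat.reduceSub, Nat.reduceAdd]
  push_cast
  linear_combination ((-130) + (129)*ζ + (1)*ζ^4 + (2)*ζ^5 + (-2)*ζ^6 + (3)*ζ^7 + (-3)*ζ^8 + (1)*ζ^9 + (-1)*ζ^10 + (-4)*ζ^12 + (-126)*ζ^13 + (127)*ζ^14 + (-2)*ζ^15 + (1)*ζ^17 + (8)*ζ^18 + (-5)*ζ^19 + (8)*ζ^20 + (-2)*ζ^21 + (7)*ζ^22 + (-6)*ζ^23 + (5)*ζ^24 + (-17)*ζ^25 + (-114)*ζ^26 + (117)*ζ^27 + (-5)*ζ^28 + (-10)*ζ^29 + (3)*ζ^30 + (5)*ζ^31 + (-3)*ζ^32 + (10)*ζ^33 + (-4)*ζ^34 + (8)*ζ^35 + (9)*ζ^36 + (11)*ζ^37 + (-20)*ζ^38 + (-98)*ζ^39 + (100)*ζ^40 + (13)*ζ^41 + (-32)*ζ^42 + (20)*ζ^43 + (-9)*ζ^44 + (-5)*ζ^45 + (1)*ζ^46 + (1)*ζ^47 + (-13)*ζ^48 + (25)*ζ^49 + (-5)*ζ^50 + (-1)*ζ^51 + (-88)*ζ^52 + (88)*ζ^53 + (-6)*ζ^54 + (-12)*ζ^55 + (25)*ζ^56 + (2)*ζ^57 + (-13)*ζ^58 + (8)*ζ^59 + (-6)*ζ^60 + (-7)*ζ^61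 + (20)*ζ^62 + (-26)*ζ^63 + (30)*ζ^64 + (-72)*ζ^65 + (67)*ζ^66 + (-22)*ζ^67 + (-13)*ζ^68 + (16)*ζ^69 + (6)*ζ^70 + (-21)*ζ^71 + (25)*ζ^72 + (-17)*ζ^73 + (7)*ζ^74 + (37)*ζ^75 + (-61)*ζ^76 + (-6)*ζ^77 + (39)*ζ^78 + (-7)*ζ^79 + (31)*ζ^80 + (-61)*ζ^81 + (55)*ζ^82 + (-17)*ζ^83 + (-1)*ζ^84 + (-14)*ζ^85 + (2)*ζ^86 + (-32)*ζ^87 + (72)*ζ^88 + (-58)*ζ^89 + (20)*ζ^90 + (6)*ζ^91 + (-9)*ζ^92 + (13)*ζ^93 + (-30)*ζ^94 + (47)*ζ^95 + (-23)*ζ^96 + (7)*ζ^97 + (-4)*ζ^98 + (-22)*ζ^99 + (10)*ζ^100 + (23)*ζ^101 + (-27)*ζ^102 + (24)*ζ^103 + (-28)*ζ^106 + (11)*ζ^107 + (-9)*ζ^108 + (31)*ζ^109 + (-21)*ζ^110 + (1)*ζ^111 + (-27)*ζ^112 + (54)*ζ^113 + (-35)*ζ^114 + (32)*ζ^115 + (-51)*ζ^116 + (64)*ζ^117 + (-54)*ζ^118 + (31)*ζ^119 + (-21)*ζ^120 + (8)*ζ^121 + (-20)*ζ^122 + (51)*ζ^123 + (-57)*ζ^124 + (43)*ζ^125 + (-34)*ζ^126 + (25)*ζ^127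 + (-17)*ζ^128 + (23)*ζ^129 + (-8)*ζ^130 + (-13)*ζ^131 + (-12)*ζ^132 + (38)*ζ^133 + (-42)*ζ^134 + (42)*ζ^135 + (-25)*ζ^136 + (2)*ζ^137 + (4)*ζ^138 + (7)*ζ^139 + (-5)*ζ^140 + (-10)*ζ^141 + (11)*ζ^142 + (10)*ζ^143 + (-19)*ζ^144 + (3)*ζ^145 + (7)*ζ^146 + (-13)*ζ^147 + (20)*ζ^148 + (-15)*ζ^149 + (12)*ζ^150 + (-22)*ζ^151 + (31)*ζ^152 + (-26)*ζ^153 + (23)*ζ^154 + (-12)*ζ^155 + (10)*ζ^156 + (-26)*ζ^157 + (31)*ζ^158 + (-33)*ζ^159 + (37)*ζ^160 + (-41)*ζ^161 + (41)*ζ^162 + (-35)*ζ^163 + (33)*ζ^164 + (-28)*ζ^165 + (19)*ζ^166 + (-25)*ζ^167 + (41)*ζ^168 + (-38)*ζ^169 + (34)*ζ^170 + (-41)*ζ^171 + (34)*ζ^172 + (-30)*ζ^173 + (33)*ζ^174 + (-30)*ζ^175 + (24)*ζ^176 + (-25)*ζ^177 + (34)*ζ^178 + (-38)*ζ^179 + (34)*ζ^180 + (-30)*ζ^181 + (26)*ζ^182 + (-24)*ζ^183 + (22)*ζ^184 + (-22)*ζ^185 + (20)*ζ^186 + (-18)*ζ^187 +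 (21)*ζ^188 + (-22)*ζ^189 + (20)*ζ^190 + (-19)*ζ^191 + (17)*ζ^192 + (-15)*ζ^193 + (16)*ζ^194 + (-16)*ζ^195 + (11)*ζ^196 + (-10)*ζ^197 + (11)*ζ^198 + (-10)*ζ^199 + (12)*ζ^200 + (-12)*ζ^201 + (9)*ζ^202 + (-7)*ζ^203 + (6)*ζ^204 + (-5)*ζ^205 + (3)*ζ^206 + (-2)*ζ^207 + (4)*ζ^208 + (-5)*ζ^209 + (5)*ζ^210 + (-5)*ζ^211 + (4)*ζ^212 + (-2)*ζ^213 + (2)*ζ^214 + (-2)*ζ^215 + (1)*ζ^216 + (-1)*ζ^217 + (2)*ζ^218 + (-2)*ζ^219 + (1)*ζ^220 + (-1)*ζ^221 + (1)*ζ^222) * hΦ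

theorem cert_13_79 {K : Type} [Field K] (ζ : K) (hΦ : ∑ i ∈ Finset.range 13, ζ ^ i = 0) :
    ∏ k ∈ Finset.Ico 1 13, aeval (ζ ^ k) (1 + X - X ^ 4 : ℤ[X]) = ((79 : ℤ) : K) := by
  simp only [Finset.sum_range_succ, Finset.range_zero, Finset.sum_empty] at hΦ
  simp only [Finset.prod_Ico_eq_prod_range, Finset.prod_range_succ, Finset.range_zero,
    Finset.prod_empty, map_add, map_sub, map_one, map_pow, aeval_X, Nat.reduceSub, Nat.reduceAdd]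
  push_cast
  linear_combination ((-78) + (79)*ζ + (1)*ζ^3 + (-1)*ζ^4 + (2)*ζ^5 + (1)*ζ^7 + (1)*ζ^9 + (3)*ζ^10 + (2)*ζ^12 + (-79)*ζ^13 + (82)*ζ^14 + (2)*ζ^15 + (2)*ζ^16 + (-1)*ζ^17 + (4)*ζ^18 + (-1)*ζ^19 + (6)*ζ^20 + (2)*ζ^22 + (1)*ζ^23 + (-2)*ζ^24 + (5)*ζ^25 + (-81)*ζ^26 + (82)*ζ^27 + (-2)*ζ^29 + (-3)*ζ^30 + (2)*ζ^31 + (-6)*ζ^32 + (5)*ζ^33 + (-14)*ζ^34 + (6)*ζ^35 + (-7)*ζ^36 + (-3)*ζ^37 + (-5)*ζ^38 + (-88)*ζ^39 + (79)*ζ^40 + (-6)*ζ^41 + (-12)*ζ^42 + (-8)*ζ^43 + (-4)*ζ^44 + (-1)*ζ^45 + (-3)*ζ^46 + (-16)*ζ^47 + (-16)*ζ^49 + (5)*ζ^50 + (-15)*ζ^51 + (-77)*ζ^52 + (67)*ζ^53 + (2)*ζ^54 + (3)*ζ^55 + (-4)*ζ^56 + (-4)*ζ^57 + (1)*ζ^58 + (-6)*ζ^59 + (3)*ζ^60 + (2)*ζ^61 + (1)*ζ^62 + (8)*ζ^63 + (-7)*ζ^64 + (-53)*ζ^65 + (88)*ζ^66 + (7)*ζ^67 + (5)*ζ^68 + (-14)*ζ^69 + (31)*ζ^70 + (10)*ζ^71 + (7)*ζ^72 + (10)*ζ^73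 + (6)*ζ^74 + (25)*ζ^75 + (8)*ζ^76 + (14)*ζ^77 + (-46)*ζ^78 + (64)*ζ^79 + (20)*ζ^80 + (5)*ζ^81 + (3)*ζ^82 + (28)*ζ^83 + (-16)*ζ^84 + (28)*ζ^85 + (-11)*ζ^86 + (8)*ζ^87 + (18)*ζ^88 + (-19)*ζ^89 + (17)*ζ^90 + (-49)*ζ^91 + (38)*ζ^92 + (19)*ζ^93 + (-60)*ζ^94 + (31)*ζ^95 + (-6)*ζ^96 + (-8)*ζ^97 + (-20)*ζ^98 + (-32)*ζ^99 + (16)*ζ^100 + (4)*ζ^101 + (-32)*ζ^102 + (-20)*ζ^103 + (-63)*ζ^104 + (47)*ζ^105 + (-14)*ζ^106 + (-42)*ζ^107 + (7)*ζ^108 + (-22)*ζ^109 + (-3)*ζ^110 + (-23)*ζ^111 + (-22)*ζ^112 + (6)*ζ^113 + (-9)*ζ^114 + (-9)*ζ^115 + (-11)*ζ^116 + (-46)*ζ^117 + (40)*ζ^118 + (-21)*ζ^119 + (3)*ζ^120 + (-6)*ζ^121 + (25)*ζ^122 + (-11)*ζ^123 + (-11)*ζ^124 + (-6)*ζ^125 + (29)*ζ^126 + (20)*ζ^127 + (5)*ζ^128 + (-26)*ζ^129 + (18)*ζ^130 + (25)*ζ^131 + (11)*ζ^132 + (-2)*ζ^133 + (11)*ζ^134 + (40)*ζ^135 + (13)*ζ^136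 + (-11)*ζ^137 + (17)*ζ^138 + (12)*ζ^139 + (39)*ζ^140 + (-15)*ζ^141 + (17)*ζ^142 + (-10)*ζ^143 + (9)*ζ^144 + (26)*ζ^145 + (-2)*ζ^146 + (10)*ζ^147 + (10)*ζ^148 + (5)*ζ^149 + (-8)*ζ^150 + (-3)*ζ^151 + (15)*ζ^152 + (19)*ζ^153 + (-37)*ζ^154 + (16)*ζ^155 + (-30)*ζ^156 + (15)*ζ^157 + (-14)*ζ^158 + (-10)*ζ^160 + (10)*ζ^161 + (-2)*ζ^162 + (-30)*ζ^163 + (-12)*ζ^164 + (21)*ζ^165 + (-22)*ζ^166 + (-13)*ζ^167 + (-5)*ζ^168 + (-16)*ζ^169 + (-13)*ζ^170 + (3)*ζ^171 + (-9)*ζ^172 + (5)*ζ^173 + (-5)*ζ^174 + (6)*ζ^175 + (-31)*ζ^176 + (6)*ζ^177 + (8)*ζ^178 + (-4)*ζ^179 + (-9)*ζ^180 + (10)*ζ^181 + (-15)*ζ^182 + (-3)*ζ^183 + (9)*ζ^184 + (-4)*ζ^185 + (3)*ζ^186 + (20)*ζ^187 + (4)*ζ^188 + (-23)*ζ^189 + (14)*ζ^190 + (16)*ζ^191 + (-2)*ζ^192 + (-8)*ζ^193 + (24)*ζ^194 + (-22)*ζ^195 + (18)*ζ^196 + (-3)*ζ^197 + (6)*ζ^198 + (5)*ζ^199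 + (18)*ζ^200 + (-8)*ζ^201 + (-6)*ζ^202 + (3)*ζ^203 + (22)*ζ^204 + (-15)*ζ^205 + (2)*ζ^206 + (11)*ζ^207 + (-20)*ζ^208 + (11)*ζ^209 + (5)*ζ^210 + (-10)*ζ^211 + (5)*ζ^212 + (8)*ζ^213 + (1)*ζ^214 + (-21)*ζ^215 + (10)*ζ^216 + (4)*ζ^217 + (-4)*ζ^218 + (-1)*ζ^219 + (1)*ζ^220 + (-14)*ζ^221 + (3)*ζ^222 + (-6)*ζ^224 + (4)*ζ^225 + (6)*ζ^226 + (-6)*ζ^227 + (-10)*ζ^228 + (9)*ζ^229 + (-4)*ζ^230 + (1)*ζ^231 + (-5)*ζ^232 + (9)*ζ^233 + (-13)*ζ^234 + (5)*ζ^235 + (-1)*ζ^236 + (-3)*ζ^237 + (3)*ζ^238 + (10)*ζ^239 + (-11)*ζ^240 + (1)*ζ^241 + (1)*ζ^242 + (3)*ζ^243 + (2)*ζ^244 + (-3)*ζ^245 + (2)*ζ^246 + (-6)*ζ^247 + (6)*ζ^248 + (2)*ζ^249 + (-5)*ζ^250 + (6)*ζ^251 + (2)*ζ^252 + (-4)*ζ^253 + (1)*ζ^254 + (1)*ζ^255 + (2)*ζ^256 + (-1)*ζ^257 + (-1)*ζ^258 + (2)*ζ^259 + (-5)*ζ^260 + (3)*ζ^261 + (-2)*ζ^263 + (5)*ζ^264 + (-1)*ζ^265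 + (-2)*ζ^266 + (1)*ζ^268 + (-2)*ζ^271 + (1)*ζ^272 + (-3)*ζ^273 + (3)*ζ^274 + (-2)*ζ^275 + (1)*ζ^277 + (2)*ζ^278 + (-3)*ζ^279 + (1)*ζ^280 + (-1)*ζ^281 + (1)*ζ^282 + (-2)*ζ^284 + (2)*ζ^285 + (-2)*ζ^286 + (2)*ζ^287 + (-1)*ζ^288 + (1)*ζ^290 + (1)*ζ^291 + (-1)*ζ^292 + (1)*ζ^293 + (-1)*ζ^294 + (1)*ζ^295 + (-1)*ζ^297 + (-1)*ζ^299 + (1)*ζ^300) * hΦ

theorem cert_13_157 {K : Type} [Field K] (ζ : K) (hΦ : ∑ i ∈ Finset.range 13, ζ ^ i = 0) :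
    ∏ k ∈ Finset.Ico 1 13, aeval (ζ ^ k) (1 - X + X ^ 2 + X ^ 4 : ℤ[X]) = ((157 : ℤ) : K) := by
  simp only [Finset.sum_range_succ, Finset.range_zero, Finset.sum_empty] at hΦ
  simp only [Finset.prod_Ico_eq_prod_range, Finset.prod_range_succ, Finset.range_zero,
    Finset.prod_empty, map_add, map_sub, map_one, map_pow, aeval_X, Nat.reduceSub, Nat.reduceAdd]
  push_cast
  linear_combination ((-156) + (155)*ζ + (1)*ζ^2 + (1)*ζ^4 + (-2)*ζ^5 + (1)*ζ^6 + (-2)*ζ^7 + (4)*ζ^8 + (-3)*ζ^9 + (3)*ζ^10 + (-4)*ζ^11 + (6)*ζ^12 + (-163)*ζ^13 + (159)*ζ^14 + (-2)*ζ^15 + (5)*ζ^16 + (-6)*ζ^17 + (6)*ζ^18 + (-7)*ζ^19 + (10)*ζ^20 + (-12)*ζ^21 + (10)*ζ^22 + (-9)*ζ^23 + (15)*ζ^24 + (-15)*ζ^25 + (-148)*ζ^26 + (141)*ζ^27 + (24)*ζ^28 + (-25)*ζ^29 + (24)*ζ^30 + (-27)*ζ^31 + (33)*ζ^32 + (-25)*ζ^33 + (20)*ζ^34 + (-25)*ζ^35 +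 (37)*ζ^36 + (-39)*ζ^37 + (34)*ζ^38 + (-199)*ζ^39 + (204)*ζ^40 + (-54)*ζ^41 + (45)*ζ^42 + (-47)*ζ^43 + (62)*ζ^44 + (-63)*ζ^45 + (62)*ζ^46 + (-71)*ζ^47 + (104)*ζ^48 + (-93)*ζ^49 + (82)*ζ^50 + (-99)*ζ^51 + (-40)*ζ^52 + (42)*ζ^53 + (95)*ζ^54 + (-118)*ζ^55 + (137)*ζ^56 + (-146)*ζ^57 + (132)*ζ^58 + (-150)*ζ^59 + (178)*ζ^60 + (-169)*ζ^61 + (165)*ζ^62 + (-158)*ζ^63 + (196)*ζ^64 + (-354)*ζ^65 + (345)*ζ^66 + (-219)*ζ^67 + (268)*ζ^68 + (-256)*ζ^69 + (237)*ζ^70 + (-293)*ζ^71 + (317)*ζ^72 + (-316)*ζ^73 + (281)*ζ^74 + (-323)*ζ^75 + (384)*ζ^76 + (-371)*ζ^77 + (200)*ζ^78 + (-243)*ζ^79 + (462)*ζ^80 + (-444)*ζ^81 + (432)*ζ^82 + (-435)*ζ^83 + (497)*ζ^84 + (-484)*ζ^85 + (450)*ζ^86 + (-534)*ζ^87 + (619)*ζ^88 + (-611)*ζ^89 + (578)*ζ^90 + (-819)*ζ^91 + (856)*ζ^92 + (-653)*ζ^93 + (627)*ζ^94 + (-713)*ζ^95 + (807)*ζ^96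 + (-794)*ζ^97 + (798)*ζ^98 + (-850)*ζ^99 + (908)*ζ^100 + (-870)*ζ^101 + (837)*ζ^102 + (-864)*ζ^103 + (786)*ζ^104 + (-834)*ζ^105 + (974)*ζ^106 + (-1033)*ζ^107 + (1142)*ζ^108 + (-1115)*ζ^109 + (1067)*ζ^110 + (-1174)*ζ^111 + (1252)*ζ^112 + (-1189)*ζ^113 + (1167)*ζ^114 + (-1295)*ζ^115 + (1422)*ζ^116 + (-1542)*ζ^117 + (1475)*ζ^118 + (-1445)*ζ^119 + (1570)*ζ^120 + (-1492)*ζ^121 + (1433)*ζ^122 + (-1488)*ζ^123 + (1593)*ζ^124 + (-1587)*ζ^125 + (1546)*ζ^126 + (-1650)*ζ^127 + (1788)*ζ^128 + (-1708)*ζ^129 + (1530)*ζ^130 + (-1690)*ζ^131 + (1871)*ζ^132 + (-1780)*ζ^133 + (1787)*ζ^134 + (-1950)*ζ^135 + (2046)*ζ^136 + (-1976)*ζ^137 + (1975)*ζ^138 + (-2096)*ζ^139 + (2142)*ζ^140 + (-2096)*ζ^141 + (2082)*ζ^142 + (-2170)*ζ^143 + (2227)*ζ^144 + (-2125)*ζ^145 + (2092)*ζ^146 + (-2168)*ζ^147 + (2271)*ζ^148 + (-2248)*ζ^149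 + (2182)*ζ^150 + (-2239)*ζ^151 + (2297)*ζ^152 + (-2201)*ζ^153 + (2166)*ζ^154 + (-2340)*ζ^155 + (2409)*ζ^156 + (-2344)*ζ^157 + (2421)*ζ^158 + (-2516)*ζ^159 + (2518)*ζ^160 + (-2406)*ζ^161 + (2328)*ζ^162 + (-2360)*ζ^163 + (2447)*ζ^164 + (-2462)*ζ^165 + (2416)*ζ^166 + (-2443)*ζ^167 + (2526)*ζ^168 + (-2473)*ζ^169 + (2385)*ζ^170 + (-2362)*ζ^171 + (2377)*ζ^172 + (-2318)*ζ^173 + (2294)*ζ^174 + (-2404)*ζ^175 + (2462)*ζ^176 + (-2366)*ζ^177 + (2326)*ζ^178 + (-2378)*ζ^179 + (2394)*ζ^180 + (-2311)*ζ^181 + (2254)*ζ^182 + (-2236)*ζ^183 + (2280)*ζ^184 + (-2266)*ζ^185 + (2210)*ζ^186 + (-2205)*ζ^187 + (2201)*ζ^188 + (-2128)*ζ^189 + (2080)*ζ^190 + (-2078)*ζ^191 + (2084)*ζ^192 + (-1981)*ζ^193 + (1885)*ζ^194 + (-1907)*ζ^195 + (1953)*ζ^196 + (-1898)*ζ^197 + (1858)*ζ^198 + (-1853)*ζ^199 + (1821)*ζ^200 + (-1756)*ζ^201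 + (1725)*ζ^202 + (-1665)*ζ^203 + (1626)*ζ^204 + (-1603)*ζ^205 + (1576)*ζ^206 + (-1567)*ζ^207 + (1578)*ζ^208 + (-1487)*ζ^209 + (1378)*ζ^210 + (-1349)*ζ^211 + (1361)*ζ^212 + (-1296)*ζ^213 + (1221)*ζ^214 + (-1199)*ζ^215 + (1210)*ζ^216 + (-1168)*ζ^217 + (1126)*ζ^218 + (-1107)*ζ^219 + (1069)*ζ^220 + (-986)*ζ^221 + (957)*ζ^222 + (-947)*ζ^223 + (933)*ζ^224 + (-881)*ζ^225 + (832)*ζ^226 + (-810)*ζ^227 + (806)*ζ^228 + (-766)*ζ^229 + (713)*ζ^230 + (-675)*ζ^231 + (660)*ζ^232 + (-616)*ζ^233 + (583)*ζ^234 + (-562)*ζ^235 + (544)*ζ^236 + (-501)*ζ^237 + (486)*ζ^238 + (-488)*ζ^239 + (470)*ζ^240 + (-415)*ζ^241 + (380)*ζ^242 + (-365)*ζ^243 + (354)*ζ^244 + (-338)*ζ^245 + (327)*ζ^246 + (-301)*ζ^247 + (296)*ζ^248 + (-279)*ζ^249 + (252)*ζ^250 + (-234)*ζ^251 + (223)*ζ^252 + (-196)*ζ^253 + (181)*ζ^254 + (-178)*ζ^255 + (177)*ζ^256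 + (-158)*ζ^257 + (142)*ζ^258 + (-133)*ζ^259 + (131)*ζ^260 + (-114)*ζ^261 + (100)*ζ^262 + (-90)*ζ^263 + (87)*ζ^264 + (-83)*ζ^265 + (80)*ζ^266 + (-73)*ζ^267 + (70)*ζ^268 + (-60)*ζ^269 + (52)*ζ^270 + (-49)*ζ^271 + (50)*ζ^272 + (-40)*ζ^273 + (31)*ζ^274 + (-30)*ζ^275 + (32)*ζ^276 + (-26)*ζ^277 + (22)*ζ^278 + (-21)*ζ^279 + (22)*ζ^280 + (-17)*ζ^281 + (14)*ζ^282 + (-12)*ζ^283 + (9)*ζ^284 + (-7)*ζ^285 + (9)*ζ^286 + (-9)*ζ^287 + (9)*ζ^288 + (-7)*ζ^289 + (5)*ζ^290 + (-4)*ζ^291 + (4)*ζ^292 + (-2)*ζ^293 + (1)*ζ^294 + (-2)*ζ^295 + (3)*ζ^296 + (-2)*ζ^297 + (1)*ζ^298 + (-1)*ζ^299 + (1)*ζ^300) * hΦ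

/-! ### The three PID theorems -/

theorem pid_seven' (K : Type) [Field K] [NumberField K] [IsCyclotomicExtension {7} ℚ K] :
    IsPrincipalIdealRing (𝓞 K) := by
  haveI : Fact (Nat.Prime 7) := ⟨by norm_num⟩
  refine pid_of_certificates 7 K 4 (minkowski_aux 7 K 130 4 (by norm_num) ?_) ?_
  · norm_num [Nat.factorial]
  · intro ℓ hℓ hle hne
    left
    interval_cases ℓ
    · exact absurd hℓ (by norm_num)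
    · exact absurd hℓ (by norm_num)
    · refine lt_pow_orderOf 3 hℓ hne ?_ (by norm_num)
      intro j h0 h1
      interval_cases j <;> norm_num
    · refine lt_pow_orderOf 2 hℓ hne ?_ (by norm_num)
      intro j h0 h1
      interval_cases j <;> norm_num
    · exact absurd hℓ (by norm_num)

theorem pid_eleven' (K : Type) [Field K] [NumberField K] [IsCyclotomicExtension {11} ℚ K] :
    IsPrincipalIdealRing (𝓞 K) := by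
  haveI : Fact (Nat.Prime 11) := ⟨by norm_num⟩
  refine pid_of_certificates 11 K 59 (minkowski_aux 11 K 48559 59 (by norm_num) ?_) ?_
  · norm_num [Nat.factorial]
  · intro ℓ hℓ hle hne
    by_cases h1 : (ℓ : ZMod 11) = 1
    · right
      rw [orderOf_eq_one_iff.mpr h1, pow_one]
      have h2 : ℓ % 11 = 1 := by
        have := (ZMod.natCast_eq_natCast_iff' ℓ 1 11).mp (by simpa using h1)
        simpa using this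
      obtain ⟨k, rfl⟩ : ∃ k, ℓ = 11 * k + 1 := ⟨ℓ / 11, by omega⟩
      have hk : k ≤ 5 := by omega
      interval_cases k
      · exact absurd hℓ (by norm_num)
      · exact absurd hℓ (by norm_num)
      · exact exists_norm_of_cert _ 23 _ rfl (fun ζ hζ => cert_11_23 ζ hζ)
      · exact absurd hℓ (by norm_num)
      · exact absurd hℓ (by norm_num)
      · exact absurd hℓ (by norm_num)
    · left
      by_cases h8 : 8 ≤ ℓ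
      · refine lt_pow_orderOf 2 hℓ hne ?_ (by nlinarith)
        intro j h0 hj
        interval_cases j
        intro h
        exact h1 (by simpa using pow_zmod_eq_one_iff.mpr h)
      · have h8' : ℓ ≤ 7 := by omega
        clear h1 h8 hle
        interval_cases ℓ
        · exact absurd hℓ (by norm_num)
        · exact absurd hℓ (by norm_num)
        · refine lt_pow_orderOf 6 hℓ hne ?_ (by norm_num)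
          intro j h0 h1
          interval_cases j <;> norm_num
        · refine lt_pow_orderOf 4 hℓ hne ?_ (by norm_num)
          intro j h0 h1
          interval_cases j <;> norm_num
        · exact absurd hℓ (by norm_num)
        · refine lt_pow_orderOf 3 hℓ hne ?_ (by norm_num)
          intro j h0 h1
          interval_cases j <;> norm_num
        · exact absurd hℓ (by norm_num)
        · refine lt_pow_orderOf 3 hℓ hne ?_ (by norm_num)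
          intro j h0 h1
          interval_cases j <;> norm_num

theorem pid_thirteen' (K : Type) [Field K] [NumberField K] [IsCyclotomicExtension {13} ℚ K] :
    IsPrincipalIdealRing (𝓞 K) := by
  haveI : Fact (Nat.Prime 13) := ⟨by norm_num⟩
  refine pid_of_certificates 13 K 312 (minkowski_aux 13 K 1338716 312 (by norm_num) ?_) ?_
  · norm_num [Nat.factorial]
  · intro ℓ hℓ hle hne
    by_cases h1 : (ℓ : ZMod 13) = 1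
    · right
      rw [orderOf_eq_one_iff.mpr h1, pow_one]
      have h2 : ℓ % 13 = 1 := by
        have := (ZMod.natCast_eq_natCast_iff' ℓ 1 13).mp (by simpa using h1)
        simpa using this
      obtain ⟨k, rfl⟩ : ∃ k, ℓ = 13 * k + 1 := ⟨ℓ / 13, by omega⟩
      have hk : k ≤ 23 := by omega
      clear h1 h2 hle hne
      interval_cases k
      case «4» => exact exists_norm_of_cert _ 53 _ rfl (fun ζ hζ => cert_13_53 ζ hζ)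
      case «6» => exact exists_norm_of_cert _ 79 _ rfl (fun ζ hζ => cert_13_79 ζ hζ)
      case «10» => exact exists_norm_of_cert _ 131 _ rfl (fun ζ hζ => cert_13_131 ζ hζ)
      case «12» => exact exists_norm_of_cert _ 157 _ rfl (fun ζ hζ => cert_13_157 ζ hζ)
      all_goals exact absurd hℓ (by norm_num)
    · by_cases h18 : 18 ≤ ℓ
      · left
        refine lt_pow_orderOf 2 hℓ hne ?_ (by nlinarith)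
        intro j h0 hj
        interval_cases j
        intro h
        exact h1 (by simpa using pow_zmod_eq_one_iff.mpr h)
      · have h18' : ℓ ≤ 17 := by omega
        clear h1 h18 hle
        interval_cases ℓ
        case «2» =>
          left
          refine lt_pow_orderOf 9 hℓ hne ?_ (by norm_num)
          intro j h0 h1
          interval_cases j <;> norm_num
        case «3» =>
          right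
          have h3 : orderOf ((3 : ℕ) : ZMod 13) = 3 :=
            orderOf_eq_prime (pow_zmod_eq_one_iff.mpr (by norm_num))
              (fun h => by
                have := pow_zmod_eq_one_iff (q := 13) (ℓ := 3) (j := 1) |>.mp (by simpa using h)
                norm_num at this)
          rw [h3]
          exact exists_norm_of_cert _ 27 _ rfl (fun ζ hζ => cert_13_27 ζ hζ)
        case «5» =>
          left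
          refine lt_pow_orderOf 4 hℓ hne ?_ (by norm_num)
          intro j h0 h1
          interval_cases j <;> norm_num
        case «7» =>
          left
          refine lt_pow_orderOf 3 hℓ hne ?_ (by norm_num)
          intro j h0 h1
          interval_cases j <;> norm_num
        case «11» =>
          left
          refine lt_pow_orderOf 3 hℓ hne ?_ (by norm_num)
          intro j h0 h1
          interval_cases j <;> norm_num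
        case «13» => exact absurd rfl hne
        case «17» =>
          left
          refine lt_pow_orderOf 3 hℓ hne ?_ (by norm_num)
          intro j h0 h1
          interval_cases j <;> norm_num
        all_goals exact absurd hℓ (by norm_num)

/-- `CyclotomicField n ℚ` is a cyclotomic extension for the `DivisionRing.toRatAlgebra` structure
(the Mathlib instance is stated for `CyclotomicField.algebra` and is not found by instance search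
when the `ℚ`-algebra structure comes from `[Field K]`). -/
theorem isCyclotomicExtension_cyclotomicField (n : ℕ) [NeZero n] :
    IsCyclotomicExtension {n} ℚ (CyclotomicField n ℚ) :=
  CyclotomicField.isCyclotomicExtension n ℚ

theorem pid_seven : IsPrincipalIdealRing (𝓞 (CyclotomicField 7 ℚ)) :=
  @pid_seven' _ _ _ (isCyclotomicExtension_cyclotomicField 7)

theorem pid_eleven : IsPrincipalIdealRing (𝓞 (CyclotomicField 11 ℚ)) :=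
  @pid_eleven' _ _ _ (isCyclotomicExtension_cyclotomicField 11)

theorem pid_thirteen : IsPrincipalIdealRing (𝓞 (CyclotomicField 13 ℚ)) :=
  @pid_thirteen' _ _ _ (isCyclotomicExtension_cyclotomicField 13)

end Fermat.Agent.Lib.Kummer
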