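import Mathlib
import Fermat.Agent.Lib.Kummer.Defs
import Fermat.Agent.Lib.Kummer.Basic

set_option autoImplicit false

namespace Fermat.Agent.Lib.Kummer

open NumberField

/-- Pigeonhole in `G / G ^ p`: if `G` is generated modulo `p`-th powers by a family indexed by `ι`
and `e` is a family, indexed by `κ` with `card ι ≤ card κ`, which is independent modulo `p`-th
powers, then `e` generates `G` modulo `p`-th powers. -/
theorem exists_eq_prod_pow_mul_pow {G : Type*} [CommGroup G] {p : ℕ} [Fact p.Prime]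
    {ι κ : Type*} [Fintype ι] [Fintype κ] (hcard : Fintype.card ι ≤ Fintype.card κ)
    (g : ι → G) (e : κ → G)
    (hg : ∀ u : G, ∃ (k : ι → ℤ) (v : G), u = (∏ i, g i ^ k i) * v ^ p)
    (he : ∀ (y : κ → ℕ) (v : G), ∏ i, e i ^ y i = v ^ p → ∀ i, p ∣ y i) (u : G) :
    ∃ (x : κ → ℕ) (v : G), (∀ i, x i < p) ∧ u = (∏ i, e i ^ x i) * v ^ p := by
  classical
  have hp : p.Prime := Fact.out
  set H : Subgroup G := (powMonoidHom p : G →* G).range with hH
  have hmem : ∀ w : G, w ∈ H ↔ ∃ v, v ^ p = w := by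
    intro w
    simp [hH, MonoidHom.mem_range]
  let φg : (ι → ZMod p) → G ⧸ H := fun k => QuotientGroup.mk (∏ i, g i ^ (k i).val)
  let φe : (κ → ZMod p) → G ⧸ H := fun k => QuotientGroup.mk (∏ i, e i ^ (k i).val)
  have hsurj : Function.Surjective φg := by
    intro w
    obtain ⟨w, rfl⟩ := QuotientGroup.mk_surjective w
    obtain ⟨k, v, hkv⟩ := hg w
    refine ⟨fun i => (k i : ZMod p), ?_⟩
    rw [QuotientGroup.eq, hmem]
    have hk : ∀ i, ∃ q : ℤ, k i = (((k i : ZMod p)).val : ℤ) + p * q := by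
      intro i
      have : ((k i - (((k i : ZMod p)).val : ℤ) : ℤ) : ZMod p) = 0 := by
        push_cast
        simp
      obtain ⟨q, hq⟩ := (ZMod.intCast_zmod_eq_zero_iff_dvd _ _).1 this
      exact ⟨q, by linarith⟩
    choose q hq using hk
    refine ⟨(∏ i, g i ^ q i) * v, ?_⟩
    rw [hkv, mul_pow, ← Finset.prod_pow, ← mul_assoc, ← Finset.prod_inv_distrib,
      ← Finset.prod_mul_distrib]
    congr 1
    refine Finset.prod_congr rfl fun i _ => ?_
    conv_rhs => rw [hq i]
    rw [zpow_add, zpow_mul, zpow_natCast, zpow_natCast, inv_mul_cancel_left, ← zpow_natCast,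
      ← zpow_mul, ← zpow_natCast, ← zpow_mul, mul_comm]
  have hinj : Function.Injective φe := by
    intro y y' hyy
    rw [QuotientGroup.eq, hmem] at hyy
    obtain ⟨v, hv⟩ := hyy
    have key := he (fun i => (y' i).val + (p - (y i).val)) (v * ∏ i, e i) (by
      rw [mul_pow, hv, ← Finset.prod_pow, mul_assoc, ← Finset.prod_mul_distrib,
        ← Finset.prod_inv_distrib, ← Finset.prod_mul_distrib]
      refine Finset.prod_congr rfl fun i _ => ?_
      have : (y i).val ≤ p := (ZMod.val_lt _).le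
      rw [pow_add, pow_sub _ this]
      simp only [mul_comm, mul_left_comm, mul_assoc])
    funext i
    have h1 := key i
    have h2 : (y i).val < p := ZMod.val_lt _
    have h3 : (((y' i).val + (p - (y i).val) : ℕ) : ZMod p) = 0 :=
      (ZMod.natCast_eq_zero_iff _ _).2 h1
    rw [Nat.cast_add, Nat.cast_sub h2.le] at h3
    simp only [ZMod.natCast_val, ZMod.cast_id', id_eq, CharP.cast_eq_zero, zero_sub] at h3
    exact (add_neg_eq_zero.1 h3).symm
  have : Finite (G ⧸ H) := Finite.of_surjective φg hsurj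
  have hc : Nat.card (G ⧸ H) ≤ Nat.card (κ → ZMod p) := by
    refine (Nat.card_le_card_of_surjective φg hsurj).trans ?_
    simp only [Nat.card_eq_fintype_card, Fintype.card_fun, ZMod.card]
    exact Nat.pow_le_pow_right hp.pos hcard
  have hbij := hinj.bijective_of_nat_card_le hc
  obtain ⟨x, hx⟩ := hbij.2 (QuotientGroup.mk u)
  rw [QuotientGroup.eq, hmem] at hx
  obtain ⟨v, hv⟩ := hx
  refine ⟨fun i => (x i).val, v, fun i => ZMod.val_lt _, ?_⟩
  rw [hv, mul_inv_cancel_left]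

/-- Dirichlet's unit theorem: `(𝓞 K)ˣ` is generated by `rank K + 1` elements. -/
theorem exists_units_generators (K : Type) [Field K] [NumberField K] :
    ∃ g : Option (Fin (Units.rank K)) → (𝓞 K)ˣ,
      ∀ u : (𝓞 K)ˣ, ∃ k : Option (Fin (Units.rank K)) → ℤ, u = ∏ i, g i ^ k i := by
  obtain ⟨t, ht⟩ := IsCyclic.exists_generator (α := Units.torsion K)
  refine ⟨fun i => i.elim (t : (𝓞 K)ˣ) (Units.fundSystem K), fun u => ?_⟩
  obtain ⟨⟨x, e⟩, hxu, -⟩ := Units.exist_unique_eq_mul_prod K u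
  obtain ⟨m, hm⟩ := Subgroup.mem_zpowers_iff.1 (ht x)
  refine ⟨fun i => i.elim m e, ?_⟩
  rw [Fintype.prod_option, hxu]
  simp only [Option.elim_none, Option.elim_some, ← hm]
  simp

theorem rank_add_one_eq {p : ℕ} [hp : Fact p.Prime] (hp2 : p ≠ 2) (K : Type) [Field K]
    [NumberField K] [IsCyclotomicExtension {p} ℚ K] : Units.rank K + 1 = (p - 1) / 2 := by
  have h2 : 2 < p := lt_of_le_of_ne hp.out.two_le (Ne.symm hp2)
  have h3 : Fintype.card (InfinitePlace K) = (p - 1) / 2 := by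
    rw [InfinitePlace.card_eq_nrRealPlaces_add_nrComplexPlaces,
      IsCyclotomicExtension.Rat.nrRealPlaces_eq_zero (n := p) K h2, zero_add,
      IsCyclotomicExtension.Rat.nrComplexPlaces_eq_totient_div_two (n := p),
      Nat.totient_prime hp.out]
  dsimp only [Units.rank]
  rw [h3]
  omega

/-- Kummer's lemma follows from the independence modulo `p` of the cyclotomic units. -/
theorem kummerLemma_of_indep {p : ℕ} [hp : Fact p.Prime] (hp2 : p ≠ 2) (K : Type) [Field K]
    [NumberField K] [IsCyclotomicExtension {p} ℚ K] {ζ : K} (hζ : IsPrimitiveRoot ζ p)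
    (H : CycloUnitsIndep hζ) : KummerLemma p K := by
  classical
  have hz := hζ.toInteger_isPrimitiveRoot
  set N := (p - 1) / 2 with hN
  have h2 : 2 < p := lt_of_le_of_ne hp.out.two_le (Ne.symm hp2)
  have hN1 : 1 ≤ N := by omega
  -- the cyclotomic units
  have hunit : ∀ a : ℕ, ∃ E : (𝓞 K)ˣ, (a = 1 → (E : 𝓞 K) = hζ.toInteger) ∧
      (a ∈ Finset.Icc 2 N → (E : 𝓞 K) = ∑ i ∈ Finset.range a, hζ.toInteger ^ i) := by
    intro a
    by_cases ha1 : a = 1
    · refine ⟨(hz.isUnit hp.out.ne_zero).unit, fun _ => rfl, fun h => ?_⟩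
      rw [Finset.mem_Icc] at h
      omega
    · by_cases ha : a ∈ Finset.Icc 2 N
      · have ha' := Finset.mem_Icc.1 ha
        refine ⟨(hz.geom_sum_isUnit hp.out.two_le
          (Nat.coprime_of_lt_prime (by omega) (by omega) hp.out).symm).unit, fun h => absurd h ha1,
          fun _ => rfl⟩
      · exact ⟨1, fun h => absurd h ha1, fun h => absurd h ha⟩
  choose E hE1 hE using hunit
  have hcoe : ∀ y : ℕ → ℕ, ((∏ a ∈ Finset.Icc 1 N, E a ^ y a : (𝓞 K)ˣ) : 𝓞 K) =
      hζ.toInteger ^ y 1 *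
        ∏ a ∈ Finset.Icc 2 N, (∑ i ∈ Finset.range a, hζ.toInteger ^ i) ^ y a := by
    intro y
    rw [← Finset.Ioc_insert_left hN1, Finset.prod_insert (by simp), ← Finset.Icc_add_one_left_eq_Ioc]
    push_cast
    rw [hE1 1 rfl]
    congr 1
    exact Finset.prod_congr rfl fun a ha => by rw [hE a ha]
  -- extension of exponents by zero
  let ext : (Finset.Icc 1 N → ℕ) → ℕ → ℕ := fun y a => if h : a ∈ Finset.Icc 1 N then y ⟨a, h⟩ else 0
  have hext : ∀ (y : Finset.Icc 1 N → ℕ) (i : Finset.Icc 1 N), ext y i = y i := by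
    intro y i
    simp only [ext]
    rw [dif_pos i.2]
  have hprod : ∀ y : Finset.Icc 1 N → ℕ,
      ∏ i : Finset.Icc 1 N, E i ^ y i = ∏ a ∈ Finset.Icc 1 N, E a ^ ext y a := by
    intro y
    rw [← Finset.prod_coe_sort (Finset.Icc 1 N) (fun a => E a ^ ext y a)]
    exact Finset.prod_congr rfl fun i _ => by rw [hext]
  obtain ⟨g, hg⟩ := exists_units_generators K
  have hcard : Fintype.card (Option (Fin (Units.rank K))) ≤ Fintype.card (Finset.Icc 1 N) := by
    rw [Fintype.card_option, Fintype.card_fin, rank_add_one_eq hp2 K, Fintype.card_coe,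
      Nat.card_Icc]
    omega
  have key := exists_eq_prod_pow_mul_pow (p := p) hcard g (fun i : Finset.Icc 1 N => E i)
    (fun u => by
      obtain ⟨k, hk⟩ := hg u
      exact ⟨k, 1, by rw [one_pow, mul_one]; exact hk⟩)
    (fun y v hyv i => by
      obtain ⟨n, hn⟩ := exists_int_pow_sub_dvd hζ (v : 𝓞 K)
      have h3 := H (ext y) n (by
        rw [← hcoe, ← hprod, hyv]
        exact_mod_cast hn)
      have := h3 i i.2
      rwa [hext] at this)
  intro u ⟨n, hn⟩
  obtain ⟨x, v, hxp, hxv⟩ := key u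
  obtain ⟨m, hm⟩ := exists_int_pow_sub_dvd hζ ((v⁻¹ : (𝓞 K)ˣ) : 𝓞 K)
  have h4 : ∏ i : Finset.Icc 1 N, E i ^ x i = u * v⁻¹ ^ p := by
    rw [hxv, inv_pow, mul_inv_cancel_right]
  have h5 := H (ext x) (n * m) (by
    rw [← hcoe, ← hprod, h4]
    push_cast
    have : (u : 𝓞 K) * ((v⁻¹ : (𝓞 K)ˣ) : 𝓞 K) ^ p - n * m =
      ((u : 𝓞 K) - n) * ((v⁻¹ : (𝓞 K)ˣ) : 𝓞 K) ^ p + n * (((v⁻¹ : (𝓞 K)ˣ) : 𝓞 K) ^ p - m) := by
      ring
    rw [this]
    exact dvd_add (Dvd.dvd.mul_right hn _) (Dvd.dvd.mul_left hm _))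
  have h6 : ∀ i, x i = 0 := by
    intro i
    have := h5 i i.2
    rw [hext] at this
    exact Nat.eq_zero_of_dvd_of_lt this (hxp i)
  refine ⟨v, ?_⟩
  rw [hxv]
  simp [h6]

end Fermat.Agent.Lib.Kummer
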