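import Fermat.Agent.Lib.Kummer.Main
import Fermat.Agent.Lib.Kummer.PID
import Fermat.Agent.Lib.Kummer.UnitCount
import Fermat.Agent.Lib.Kummer.IndepS1

set_option autoImplicit false

namespace Fermat.Agent.Lib.Kummer

open NumberField Polynomial Finset

/-- Fermat's Last Theorem for a prime exponent `p ≥ 5` such that `ℤ[ζ_p]` is a PID and the explicit
linear-algebra condition (S2) on cyclotomic units holds. -/
theorem flt_of_pid_of_S2 {p : ℕ} [Fact p.Prime] (hp5 : 5 ≤ p)
    (hpid : ∀ (K : Type) [Field K] [NumberField K] [IsCyclotomicExtension {p} ℚ K],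
      IsPrincipalIdealRing (𝓞 K))
    (H : ∀ c : ℕ → ZMod p, (X - 1 : (ZMod p)[X]) ^ (p - 2) ∣ indepPoly p c →
      ∀ a ∈ Icc 1 ((p - 1) / 2), c a = 0)
    {a b c : ℤ} (ha : a ≠ 0) (hb : b ≠ 0) (hc : c ≠ 0) (hab : IsCoprime a b)
    (h : a ^ p + b ^ p = c ^ p) : False := by
  have hcyc := isCyclotomicExtension_cyclotomicField p
  have hpid' := hpid (CyclotomicField p ℚ)
  have hζ := IsCyclotomicExtension.zeta_spec p ℚ (CyclotomicField p ℚ)
  exact flt_of_pid_of_kummerLemma hp5 (CyclotomicField p ℚ)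
    (kummerLemma_of_indep (by omega) _ hζ (cycloUnitsIndep_of_S2 hζ H)) ha hb hc hab h

/-- Fermat's Last Theorem for the exponents `5`, `7`, `11`, `13`. -/
theorem flt_small {p : ℕ} (hp : p = 5 ∨ p = 7 ∨ p = 11 ∨ p = 13) {a b c : ℤ} (ha : a ≠ 0)
    (hb : b ≠ 0) (hc : c ≠ 0) (hab : IsCoprime a b) (h : a ^ p + b ^ p = c ^ p) : False := by
  rcases hp with rfl | rfl | rfl | rfl
  · have : Fact (Nat.Prime 5) := ⟨by norm_num⟩
    exact flt_of_pid_of_S2 (by norm_num) (fun K _ _ _ => IsCyclotomicExtension.Rat.five_pid K)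
      indepS2_five ha hb hc hab h
  · have : Fact (Nat.Prime 7) := ⟨by norm_num⟩
    exact flt_of_pid_of_S2 (by norm_num) (fun K _ _ _ => pid_seven' K)
      indepS2_seven ha hb hc hab h
  · have : Fact (Nat.Prime 11) := ⟨by norm_num⟩
    exact flt_of_pid_of_S2 (by norm_num) (fun K _ _ _ => pid_eleven' K)
      indepS2_eleven ha hb hc hab h
  · have : Fact (Nat.Prime 13) := ⟨by norm_num⟩
    exact flt_of_pid_of_S2 (by norm_num) (fun K _ _ _ => pid_thirteen' K)
      indepS2_thirteen ha hb hc hab h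

end Fermat.Agent.Lib.Kummer
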